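import Fermat.Agent.Mod2.Select.Finite

/-!
# Auxiliary primes killing the Selmer group

A class with nonzero coordinate is detected at Frobenius of some auxiliary prime
(`exists_detecting_prime`); adding it loses the class and creates none by the reciprocity step
(`classes_ssubset`). As the classes are finite, some finite set kills the Selmer group
(`exists_trivial_classes`).
-/

set_option autoImplicit false
set_option synthInstance.maxHeartbeats 200000

noncomputable section

open scoped Pointwise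

namespace FLTAgent.Mod2.Select

open TW

local notation "Q̄" => AlgebraicClosure ℚ

variable {D : Setup}

/-- A nonzero coordinate is nonzero at some element acting as the transposition. -/
theorem exists_detecting {z : Gal2 → Fin 2 → ZMod 2} (hz : D.IsCocycle z)
    (h : ∃ σ ∈ Hsub D, crd z σ ≠ 0) : ∃ g, D.rho g = Umat ∧ crd z g = 1 := by
  obtain ⟨σ, hσ, hne⟩ := h
  have h01 : ∀ a : ZMod 2, a ≠ 0 → a = 1 := by decide
  obtain ⟨gU, hgU⟩ := exists_rho D Umat (by decide)
  rcases upper_cases _ (rho_mem D σ) hσ with h1 | hU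
  · by_cases hc : crd z gU = 0
    · refine ⟨gU * σ, by rw [map_mul, hgU, h1, mul_one], ?_⟩
      rw [crd_mul hz (mem_Hsub_of_rho_U D hgU), hc, zero_add]
      exact h01 _ hne
    · exact ⟨gU, hgU, h01 _ hc⟩
  · exact ⟨σ, hU, h01 _ hne⟩

theorem U_conj : ∀ G ∈ gl2List, ∀ G' ∈ gl2List, G * G' = 1 →
    G * Umat * G' ≠ 1 ∧ G * Umat * G' * (G * Umat * G') = 1 := by decide

/-- An auxiliary prime outside a finite set whose Frobenius is the transposition and detects the
class. -/
theorem exists_detecting_prime {z : Gal2 → Fin 2 → ZMod 2} (hz : D.IsCocycle z)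
    (h : ∃ σ ∈ Hsub D, crd z σ ≠ 0) (S₀ : Finset ℕ) :
    ∃ q : D.Aux, q.1 ∉ S₀ ∧ ∃ (A : Place) (φ : Gal2), A.1.LiesOverPrime q.1 ∧
      A.1.IsFrobeniusAt φ q.1 ∧ D.rho φ = Umat ∧ crd z φ ≠ 0 := by
  obtain ⟨g, hgU, hg⟩ := exists_detecting hz h
  obtain ⟨L, hLf, hLg, hL⟩ := exists_level hz
  have := GalCommon.isGalois_Qbar
  have : L.fixingSubgroup.Normal := (InfiniteGalois.normal_iff_isGalois L).mpr hLg
  obtain ⟨q, hq, hqS, -, A, hA, τ, hτ, k, hk, hgk⟩ :=
    Density.exists_isFrobeniusAt_mem_pow_coset L.fixingSubgroup L.fixingSubgroup_isOpen g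
      (S₀ ∪ (2 * D.m).primeFactors)
  rw [Finset.mem_union, not_or] at hqS
  have hqN : ¬ q ∣ 2 * D.m := fun hd => hqS.2 (Nat.mem_primeFactors.mpr
    ⟨hq, hd, mul_ne_zero two_ne_zero D.odd_m.pos.ne'⟩)
  have hodd : Odd k := by
    rcases Nat.even_or_odd k with he | ho
    · exfalso
      set n := orderOf (g : Gal2 ⧸ L.fixingSubgroup) with hn
      have hn2 : Even n := by
        rcases Nat.even_or_odd n with hne | ⟨j, hj⟩
        · exact hne
        · exfalso
          have hgn : g ^ n ∈ L.fixingSubgroup := by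
            rw [← QuotientGroup.eq_one_iff, QuotientGroup.mk_pow]
            exact pow_orderOf_eq_one _
          have h1 := (hL _ hgn).1
          rw [map_pow, hgU, hj, pow_succ, pow_mul, show Umat ^ 2 = 1 by decide, one_pow,
            one_mul] at h1
          exact absurd h1 (by decide)
      obtain ⟨a, rfl⟩ := he
      obtain ⟨b, hb⟩ := hn2
      have hd : 2 ∣ Nat.gcd (a + a) n := Nat.dvd_gcd ⟨a, by ring⟩ ⟨b, by omega⟩
      rw [hk] at hd
      omega
    · exact ho
  have he : τ = g ^ k * ((g ^ k)⁻¹ * τ) := (mul_inv_cancel_left _ _).symm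
  obtain ⟨hρu, hzu⟩ := hL _ hgk
  have hτU : D.rho τ = Umat := by
    obtain ⟨j, rfl⟩ := hodd
    rw [he, map_mul, hρu, mul_one, map_pow, hgU, pow_succ, pow_mul, show Umat ^ 2 = 1 by decide,
      one_pow, one_mul]
  have hτz : crd z τ = 1 := by
    show z τ 1 = 1
    rw [he, hzu]
    show crd z (g ^ k) = 1
    rw [crd_pow hz (mem_Hsub_of_rho_U D hgU), hg]
    obtain ⟨j, rfl⟩ := hodd
    rw [nsmul_one, Nat.cast_add, Nat.cast_mul, Nat.cast_ofNat, show (2 : ZMod 2) = 0 from rfl]
    simp
  let A' : Place := ⟨A, q, hq, hA⟩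
  refine ⟨⟨q, hq, hqN, fun B hB φ hφ => ?_⟩, hqS.1, A', τ, hA, hτ, hτU, by rw [hτz]; exact one_ne_zero⟩
  obtain ⟨γ, hγ⟩ := GalCommon.map_frobenius_isConj D.rho hq hA hB (D.unram q hq hqN B hB) hτ hφ
  rw [hγ, map_mul, map_mul, hτU]
  exact U_conj _ (rho_mem D γ) _ (rho_mem D γ⁻¹) (by rw [← map_mul, mul_inv_cancel, map_one])

/-- Adding a detecting prime drops the class and creates none. -/
theorem classes_ssubset {S : Finset D.Aux} {z : Gal2 → Fin 2 → ZMod 2} (hz : D.IsSel S z)
    (h : ∃ σ ∈ Hsub D, crd z σ ≠ 0) : ∃ q : D.Aux, classes D (insert q S) ⊂ classes D S := by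
  obtain ⟨q, hqS, A, φ, hA, hφ, hφU, hne⟩ :=
    exists_detecting_prime hz.cocycle h (S.image fun s : D.Aux => s.1)
  have hqS' : q ∉ S := fun hm => hqS (Finset.mem_image.mpr ⟨q, hm, rfl⟩)
  refine ⟨q, fun c hc => ?_, fun hsub => ?_⟩
  · obtain ⟨y, hy, rfl⟩ := hc
    exact ⟨y, unramified_of_detected hqS' hz hy hA hφ hφU hne, rfl⟩
  · obtain ⟨y, hy, hyz⟩ := hsub ⟨z, hz, rfl⟩
    have hH := mem_Hsub_of_rho_U D hφU
    have h' := congrFun hyz φ
    rw [res_of_mem hH, res_of_mem hH, crd_eq_zero_of_U hy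
      ⟨q.2.1, Or.inr ⟨q, Finset.mem_insert_self _ _, rfl⟩⟩ hA hφ.mem_decompositionSubgroup hφU] at h'
    exact hne h'.symm

/-- Selection of auxiliary primes. -/
theorem exists_trivial_classes (D : Setup) :
    ∃ S : Finset D.Aux, D.SelTrivial S := by
  suffices h : ∀ n : ℕ, ∀ S : Finset D.Aux, (classes D S).Finite → (classes D S).ncard = n →
      ∃ S' : Finset D.Aux, D.SelTrivial S' from h _ ∅ (finite_classes_empty D) rfl
  intro n
  induction n using Nat.strong_induction_on with
  | _ n ih =>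
    intro S hfin hn
    by_cases h : D.SelTrivial S
    · exact ⟨S, h⟩
    · simp only [Setup.SelTrivial, not_forall] at h
      obtain ⟨z, hz, hne⟩ := h
      have hc : ∃ σ ∈ Hsub D, crd z σ ≠ 0 := by
        by_contra hall
        push Not at hall
        exact hne (coboundary_of_crd hz.cocycle hall)
      obtain ⟨q, hq⟩ := classes_ssubset hz hc
      exact ih _ (hn ▸ Set.ncard_lt_ncard hq hfin) (insert q S) (hfin.subset hq.subset) rfl

end FLTAgent.Mod2.Select
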