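import Fermat.Agent.Mod2.Defs
import Fermat.Agent.GalCommon.Frobenius
import Fermat.Agent.Density.Main

/-!
# Selmer cocycles of `ρ̄` and their coordinate on the stabiliser of a vector

`H` is the stabiliser of `(1,0)`; the second coordinate of a cocycle is a homomorphism on `H`
which vanishes only for coboundaries.

Main declarations: `coboundary_of_crd`, `exists_local_hom`.
-/

set_option autoImplicit false

noncomputable section

open scoped Pointwise
open Matrix

namespace FLTAgent.Mod2.Select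

local notation "Q̄" => AlgebraicClosure ℚ

/-- The six invertible matrices over `𝔽₂`. -/
def gl2List : List (Mat2 (ZMod 2)) :=
  [1, !![1,1;0,1], !![1,0;1,1], !![0,1;1,0], !![0,1;1,1], !![1,1;1,0]]

theorem mem_gl2List : ∀ M : Mat2 (ZMod 2), M.det ≠ 0 → M ∈ gl2List := by decide

/-- The transposition fixing `(1,0)`. -/
def Umat : Mat2 (ZMod 2) := !![1,1;0,1]

/-- An element of order three. -/
def Cmat : Mat2 (ZMod 2) := !![0,1;1,1]

theorem sub_eq_add' (v w : Fin 2 → ZMod 2) : v - w = v + w := by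
  funext i
  exact CharTwo.sub_eq_add (v i) (w i)

theorem upper_cases : ∀ M ∈ gl2List, M 1 0 = 0 → M = 1 ∨ M = Umat := by decide

theorem upper_mulVec : ∀ M ∈ gl2List, M 1 0 = 0 →
    ∀ v : Fin 2 → ZMod 2, M.mulVec v 1 = v 1 := by decide

theorem upper_inv : ∀ M ∈ gl2List, ∀ N ∈ gl2List, M * N = 1 → M 1 0 = 0 → N 1 0 = 0 := by decide

theorem fixed_U : ∀ v : Fin 2 → ZMod 2, Umat.mulVec v = v → v 1 = 0 := by decide

section Rho

variable (D : Setup)

theorem rho_mem (σ : Gal2) : D.rho σ ∈ gl2List := by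
  refine mem_gl2List _ fun h => ?_
  have h1 := congrArg Matrix.det (show D.rho σ * D.rho σ⁻¹ = 1 by
    rw [← map_mul, mul_inv_cancel, map_one])
  rw [Matrix.det_mul, h, zero_mul, Matrix.det_one] at h1
  exact zero_ne_one h1

/-- The stabiliser of `(1,0)`. -/
def Hsub : Subgroup Gal2 where
  carrier := {σ | D.rho σ 1 0 = 0}
  one_mem' := by simp
  mul_mem' := by
    intro a b ha hb
    simp only [Set.mem_ofPred_eq] at ha hb ⊢
    rw [map_mul, Matrix.mul_apply, Fin.sum_univ_two, ha, hb]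
    simp
  inv_mem' := by
    intro a ha
    exact upper_inv _ (rho_mem D a) _ (rho_mem D a⁻¹)
      (by rw [← map_mul, mul_inv_cancel, map_one]) ha

theorem mem_Hsub {σ : Gal2} : σ ∈ Hsub D ↔ D.rho σ 1 0 = 0 := Iff.rfl

theorem mem_Hsub_of_rho_one {σ : Gal2} (h : D.rho σ = 1) : σ ∈ Hsub D := by
  simp [mem_Hsub, h]

theorem mem_Hsub_of_rho_U {σ : Gal2} (h : D.rho σ = Umat) : σ ∈ Hsub D := by
  simp [mem_Hsub, h, Umat]

theorem exists_rho (M : Mat2 (ZMod 2)) (hM : M.det ≠ 0) : ∃ σ, D.rho σ = M := D.surj M hM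

end Rho

/-- The second coordinate of a cocycle. -/
def crd (z : Gal2 → Fin 2 → ZMod 2) (σ : Gal2) : ZMod 2 := z σ 1

section Cocycle

variable {D : Setup} {z : Gal2 → Fin 2 → ZMod 2}

theorem cocycle_one (hz : D.IsCocycle z) : z 1 = 0 := by
  have h := hz.mul 1 1
  simp only [mul_one, map_one, Matrix.one_mulVec] at h
  exact left_eq_add.mp h

/-- The value at a conjugate. -/
theorem cocycle_conj (hz : D.IsCocycle z) (g k : Gal2) :
    z (g * k * g⁻¹) = z g + (D.rho g).mulVec (z k) - (D.rho (g * k * g⁻¹)).mulVec (z g) := by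
  have h1 := hz.mul (g * k * g⁻¹) g
  rw [inv_mul_cancel_right, hz.mul g k] at h1
  rw [h1, add_sub_cancel_right]

theorem cocycle_conj_ker (hz : D.IsCocycle z) (g : Gal2) {k : Gal2} (hk : D.rho k = 1) :
    z (g * k * g⁻¹) = (D.rho g).mulVec (z k) := by
  have h : D.rho (g * k * g⁻¹) = 1 := by
    rw [map_mul, map_mul, hk, mul_one, ← map_mul, mul_inv_cancel, map_one]
  rw [cocycle_conj hz, h, Matrix.one_mulVec, add_sub_cancel_left]

theorem crd_mul (hz : D.IsCocycle z) {σ : Gal2} (hσ : σ ∈ Hsub D) (τ : Gal2) :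
    crd z (σ * τ) = crd z σ + crd z τ := by
  unfold crd
  rw [hz.mul, Pi.add_apply, upper_mulVec _ (rho_mem D σ) hσ]

theorem crd_pow (hz : D.IsCocycle z) {σ : Gal2} (hσ : σ ∈ Hsub D) :
    ∀ n : ℕ, crd z (σ ^ n) = n • crd z σ
  | 0 => by simp [crd, cocycle_one hz]
  | n + 1 => by rw [pow_succ', crd_mul hz hσ, crd_pow hz hσ n, succ_nsmul, add_comm]

/-- Subtracting a coboundary. -/
def adjust (D : Setup) (z : Gal2 → Fin 2 → ZMod 2) (a : Fin 2 → ZMod 2) (g : Gal2) :
    Fin 2 → ZMod 2 :=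
  z g - ((D.rho g).mulVec a - a)

theorem adjust_mul (hz : D.IsCocycle z) (a : Fin 2 → ZMod 2) (g h : Gal2) :
    adjust D z a (g * h) = adjust D z a g + (D.rho g).mulVec (adjust D z a h) := by
  unfold adjust
  rw [hz.mul, map_mul, ← Matrix.mulVec_mulVec, Matrix.mulVec_sub, Matrix.mulVec_sub]
  abel

theorem adjust_apply_one (a : Fin 2 → ZMod 2) {g : Gal2} (hg : g ∈ Hsub D) :
    adjust D z a g 1 = crd z g := by
  unfold adjust crd
  rw [Pi.sub_apply, Pi.sub_apply, upper_mulVec _ (rho_mem D g) hg, sub_self, sub_zero]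

theorem crd_coboundary (a : Fin 2 → ZMod 2) (hzero : ∀ g, z g = (D.rho g).mulVec a - a)
    {g : Gal2} (hg : g ∈ Hsub D) : crd z g = 0 := by
  rw [crd, hzero, Pi.sub_apply, upper_mulVec _ (rho_mem D g) hg, sub_self]

theorem all_coords_zero : ∀ v : Fin 2 → ZMod 2, v 1 = 0 → Cmat.mulVec v 1 = 0 → v = 0 := by
  decide

theorem order_three_solve : ∀ v : Fin 2 → ZMod 2, ∃ a : Fin 2 → ZMod 2,
    Cmat.mulVec a - a = v := by decide

theorem order_three_kills : ∀ v : Fin 2 → ZMod 2, (Cmat * Cmat).mulVec v = v → v = 0 := by decide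

theorem gl2_words : ∀ M ∈ gl2List, M = 1 ∨ M = Cmat ∨ M = Cmat * Cmat ∨ M = Umat ∨
    M = Cmat * Umat ∨ M = Cmat * Cmat * Umat := by decide

/-- A cocycle whose coordinate vanishes on `H` is a coboundary. -/
theorem coboundary_of_crd (hz : D.IsCocycle z) (h0 : ∀ σ ∈ Hsub D, crd z σ = 0) :
    ∃ a : Fin 2 → ZMod 2, ∀ g, z g = (D.rho g).mulVec a - a := by
  obtain ⟨gC, hC⟩ := exists_rho D Cmat (by decide)
  obtain ⟨gU, hU⟩ := exists_rho D Umat (by decide)
  have hker : ∀ k, D.rho k = 1 → z k = 0 := by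
    intro k hk
    refine all_coords_zero _ (h0 k (mem_Hsub_of_rho_one D hk)) ?_
    have h1 := h0 (gC * k * gC⁻¹) (mem_Hsub_of_rho_one D (by
      rw [map_mul, map_mul, hk, mul_one, ← map_mul, mul_inv_cancel, map_one]))
    rwa [crd, cocycle_conj_ker hz gC hk, hC] at h1
  have hdep : ∀ g g', D.rho g = D.rho g' → z g = z g' := by
    intro g g' h
    have hk : D.rho (g⁻¹ * g') = 1 := by
      rw [map_mul, ← h, ← map_mul, inv_mul_cancel, map_one]
    have := hz.mul g (g⁻¹ * g')
    rw [mul_inv_cancel_left, hker _ hk, Matrix.mulVec_zero, add_zero] at this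
    exact this.symm
  obtain ⟨a, ha⟩ := order_three_solve (z gC)
  refine ⟨a, fun g => sub_eq_zero.mp ?_⟩
  change adjust D z a g = 0
  set w := adjust D z a with hw
  have hwC : w gC = 0 := by rw [hw, adjust, hC, ha, sub_self]
  have hwmul : ∀ g h, w (g * h) = w g + (D.rho g).mulVec (w h) := adjust_mul hz a
  have hwdep : ∀ g g', D.rho g = D.rho g' → w g = w g' := fun g g' h => by
    simp only [hw, adjust, hdep g g' h, h]
  have hwC2 : w (gC * gC) = 0 := by rw [hwmul, hwC, Matrix.mulVec_zero, add_zero]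
  have hwU : w gU = 0 := by
    have hrel : D.rho (gU * gC) = D.rho (gC * gC * gU) := by
      simp only [map_mul, hC, hU]; decide
    have h1 := hwdep _ _ hrel
    rw [hwmul, hwC, Matrix.mulVec_zero, add_zero, hwmul, hwC2, zero_add, map_mul, hC] at h1
    exact order_three_kills _ h1.symm
  have hw1 : w 1 = 0 := by simp [hw, adjust, cocycle_one hz]
  rcases gl2_words _ (rho_mem D g) with h | h | h | h | h | h
  · rw [hwdep g 1 (by rw [h, map_one]), hw1]
  · rw [hwdep g gC (by rw [h, hC]), hwC]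
  · rw [hwdep g (gC * gC) (by rw [h, map_mul, hC]), hwC2]
  · rw [hwdep g gU (by rw [h, hU]), hwU]
  · rw [hwdep g (gC * gU) (by rw [h, map_mul, hC, hU]), hwmul, hwC, hwU, Matrix.mulVec_zero,
      add_zero]
  · rw [hwdep g (gC * gC * gU) (by rw [h, map_mul, map_mul, hC, hU]), hwmul, hwC2, hwU,
      Matrix.mulVec_zero, add_zero]

/-- An open normal subgroup on which a cocycle and `ρ̄` are trivial. -/
theorem exists_level (hz : D.IsCocycle z) :
    ∃ L : IntermediateField ℚ Q̄, FiniteDimensional ℚ L ∧ IsGalois ℚ L ∧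
      ∀ σ ∈ L.fixingSubgroup, D.rho σ = 1 ∧ ∀ g, z (g * σ) = z g := by
  obtain ⟨L₁, hL₁, h1⟩ := D.cont
  obtain ⟨L₂, hL₂, h2⟩ := hz.cont
  have := hL₁
  have := hL₂
  obtain ⟨L, hfin, hgal, hle⟩ := Density.exists_finite_galois_fixingSubgroup_le
    (L₁ ⊔ L₂).fixingSubgroup (L₁ ⊔ L₂).fixingSubgroup_isOpen
  refine ⟨L, hfin, hgal, fun σ hσ => ?_⟩
  have h := (IntermediateField.mem_fixingSubgroup_iff _ _).mp (hle hσ)
  exact ⟨h1 σ fun x hx => h x (le_sup_left (a := L₁) hx),
    fun g => h2 g σ fun x hx => h x (le_sup_right (a := L₁) hx)⟩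

end Cocycle

/-! ### The local conditions -/

section Local

variable {D : Setup} {z : Gal2 → Fin 2 → ZMod 2} {S : Finset D.Aux}

/-- Some element of the decomposition group at a special place is nontrivial. -/
theorem exists_moved {v : ℕ} (hv : D.IsSpecial S v) {A : ValuationSubring Q̄}
    (hA : A.LiesOverPrime v) : ∃ d ∈ A.decompositionSubgroup ℚ, D.rho d ≠ 1 := by
  obtain ⟨hvp, h | ⟨s, -, rfl⟩⟩ := hv
  · obtain ⟨-, σ, hσ, hne⟩ := D.ram v hvp h A hA
    exact ⟨σ, (GalCommon.mem_inertiaSubgroupIn_iff.mp hσ).1, hne⟩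
  · obtain ⟨σ, hσ⟩ := GalCommon.exists_isFrobeniusAt s.2.1 hA
    exact ⟨σ, hσ.mem_decompositionSubgroup, (s.2.2.2 A hA σ hσ).1⟩

/-- At a transposition fixing `(1,0)` in a decomposition group the coordinate vanishes. -/
theorem crd_eq_zero_of_U (hz : D.IsSel S z) {v : ℕ} (hv : D.IsSpecial S v)
    {A : ValuationSubring Q̄} (hA : A.LiesOverPrime v) {g : Gal2}
    (hg : g ∈ A.decompositionSubgroup ℚ) (hU : D.rho g = Umat) : crd z g = 0 := by
  obtain ⟨a, ha⟩ := hz.special v hv A hA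
  have h := ha g hg g hg
  rw [hU] at h
  rw [← adjust_apply_one a (mem_Hsub_of_rho_U D hU)]
  refine fixed_U _ ?_
  simpa only [adjust, hU] using h

/-- At a special place whose decomposition group lies in `H` the coordinate vanishes. -/
theorem crd_eq_zero_of_fixed (hz : D.IsSel S z) {v : ℕ} (hv : D.IsSpecial S v)
    {A : ValuationSubring Q̄} (hA : A.LiesOverPrime v)
    (hsub : ∀ d ∈ A.decompositionSubgroup ℚ, d ∈ Hsub D) {g : Gal2}
    (hg : g ∈ A.decompositionSubgroup ℚ) : crd z g = 0 := by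
  obtain ⟨a, ha⟩ := hz.special v hv A hA
  obtain ⟨d, hd, hne⟩ := exists_moved hv hA
  have hdU : D.rho d = Umat := (upper_cases _ (rho_mem D d) (hsub d hd)).resolve_left hne
  have h := ha g hg d hd
  rw [← adjust_apply_one a (hsub g hg)]
  refine fixed_U _ ?_
  simpa only [adjust, hdU] using h

/-- The coordinate at a special place extends to a homomorphism of the decomposition group. -/
theorem exists_local_hom (hz : D.IsSel S z) {v : ℕ} (hv : D.IsSpecial S v)
    {A : ValuationSubring Q̄} (hA : A.LiesOverPrime v) :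
    ∃ f : Gal2 → ZMod 2,
      (∀ g ∈ A.decompositionSubgroup ℚ, ∀ h ∈ A.decompositionSubgroup ℚ,
        f (g * h) = f g + f h) ∧
      (∀ g h : Gal2, D.rho h = 1 → (∀ k, z (k * h) = z k) → f (g * h) = f g) ∧
      ∀ g ∈ A.decompositionSubgroup ℚ, g ∈ Hsub D → f g = crd z g := by
  obtain ⟨a, ha⟩ := hz.special v hv A hA
  refine ⟨fun g => adjust D z a g 1, fun g hg h hh => ?_, fun g h hρ hzh => ?_,
    fun g _ hgH => adjust_apply_one a hgH⟩
  · show adjust D z a (g * h) 1 = _
    rw [adjust_mul hz.cocycle, Pi.add_apply]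
    exact congrArg _ (congrFun (ha h hh g hg) 1)
  · simp only [adjust, hzh g, map_mul, hρ, mul_one]

end Local

end FLTAgent.Mod2.Select
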