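import Fermat.Agent.Mod2.Select.Rational

/-!
# The reciprocity step

If `x` is a Selmer class which is nontrivial at Frobenius of an auxiliary prime `q`, then every
class for `S ∪ {q}` is a class for `S`: the product formula for the symbol of `x` on the Kummer
element of `y` reduces to the place of degree two above `q`.

Main declarations: `unramified_of_detected`.
-/

set_option autoImplicit false
set_option synthInstance.maxHeartbeats 200000

noncomputable section

open scoped Pointwise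

namespace FLTAgent.Mod2.Select

open TW

local notation "Q̄" => AlgebraicClosure ℚ

variable {D : Setup}

/-- The primes of the conductor and of the auxiliary set. -/
def Tset (D : Setup) (S : Finset D.Aux) : Finset ℕ :=
  (2 * D.m).primeFactors ∪ S.image fun s : D.Aux => s.1

theorem two_m_ne_zero : 2 * D.m ≠ 0 := mul_ne_zero two_ne_zero D.odd_m.pos.ne'

theorem mem_Tset {S : Finset D.Aux} {q : ℕ} : q ∈ Tset D S ↔ D.IsSpecial S q := by
  rw [Tset, Finset.mem_union, Nat.mem_primeFactors, Finset.mem_image]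
  constructor
  · rintro (⟨hp, hd, -⟩ | ⟨s, hs, rfl⟩)
    · exact ⟨hp, Or.inl hd⟩
    · exact ⟨s.2.1, Or.inr ⟨s, hs, rfl⟩⟩
  · rintro ⟨hp, hd | ⟨s, hs, rfl⟩⟩
    · exact Or.inl ⟨hp, hd, two_m_ne_zero⟩
    · exact Or.inr ⟨s, hs, rfl⟩

theorem goodSet_Tset (S : Finset D.Aux) : GoodSet D (Tset D S) where
  prime _ hq := (mem_Tset.mp hq).1
  cond _ hq hd := mem_Tset.mpr ⟨hq, Or.inl hd⟩

theorem isChar_crd {S : Finset D.Aux} {z : Gal2 → Fin 2 → ZMod 2} (hz : D.IsSel S z)
    {T : Finset ℕ} (hT : Tset D S ⊆ T) : IsChar D T (crd z) where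
  mul σ hσ τ _ := crd_mul hz.cocycle hσ τ
  cont := by
    obtain ⟨L, hf, hg, hL⟩ := exists_level hz.cocycle
    refine ⟨L, hf, hg, fun σ _ hσL => ?_⟩
    have := (hL σ hσL).2 1
    rw [one_mul, cocycle_one hz.cocycle] at this
    simp [crd, this]
  unram A hA σ hσ := by
    have hns : ¬ D.IsSpecial S A.char := fun h => hA (A.over_iff.mpr (hT (mem_Tset.mpr h)))
    simp [crd, hz.unram A.char A.prime_char hns A.1 A.liesOver_char σ hσ]

/-- The decomposition group of the place is not contained in `H`. -/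
def Moved (D : Setup) (A : Place) : Prop := ∃ d ∈ A.1.decompositionSubgroup ℚ, d ∉ Hsub D

theorem decomp_conj {A : Place} {d : Gal2} (hd : d ∈ A.1.decompositionSubgroup ℚ) (g : Gal2) :
    g * d * g⁻¹ ∈ (g • A).1.decompositionSubgroup ℚ := by
  refine decomp_of_smul ?_
  rw [mul_smul, mul_smul, inv_smul_smul, smul_of_decomp hd]

theorem moved_smul {A : Place} {σ : Gal2} (hσ : σ ∈ Hsub D) : Moved D (σ • A) ↔ Moved D A := by
  have key : ∀ (A : Place) (τ : Gal2), τ ∈ Hsub D → Moved D A → Moved D (τ • A) := by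
    rintro A τ hτ ⟨d, hd, hdH⟩
    refine ⟨τ * d * τ⁻¹, decomp_conj hd τ, fun h => hdH ?_⟩
    have h' := (Hsub D).mul_mem ((Hsub D).mul_mem ((Hsub D).inv_mem hτ) h) hτ
    rwa [show τ⁻¹ * (τ * d * τ⁻¹) * τ = d by group] at h'
  refine ⟨fun h => ?_, key A σ hσ⟩
  have := key _ σ⁻¹ (inv_mem hσ) h
  rwa [inv_smul_smul] at this

theorem U_moved : (Cmat * Umat * (Cmat * Cmat)) 1 0 ≠ 0 := invol_moved

theorem exists_moved_place {S : Finset D.Aux} {v : ℕ} (hv : D.IsSpecial S v) :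
    ∃ B : Place, B.char = v ∧ Moved D B := by
  obtain ⟨A, hA⟩ := GalCommon.exists_liesOverPrime hv.1
  obtain ⟨d, hd, hne⟩ := exists_moved hv hA
  let A' : Place := ⟨A, v, hv.1, hA⟩
  have hc : A'.char = v := A'.char_eq hv.1 hA
  by_cases hdH : d ∈ Hsub D
  · obtain ⟨gC, hgC⟩ := exists_rho D Cmat (by decide)
    have hdU : D.rho d = Umat := (upper_cases _ (rho_mem D d) hdH).resolve_left hne
    refine ⟨gC • A', by rw [Place.char_smul, hc], _, decomp_conj (A := A') hd gC, ?_⟩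
    rw [mem_Hsub, map_mul, map_mul, hgC, hdU, rho_inv_Cmat hgC]
    exact U_moved
  · exact ⟨A', hc, d, hd, hdH⟩

theorem orbit_words : ∀ G ∈ gl2List, ∀ X ∈ gl2List, ∀ Y ∈ gl2List, X 1 0 ≠ 0 → G * Y ≠ G →
    G * Y ≠ Umat * G → G 1 0 = 0 ∨ (G * X) 1 0 = 0 ∨ (G * Y) 1 0 = 0 ∨ (G * (X * X)) 1 0 = 0 ∨
      (G * (Y * Y)) 1 0 = 0 ∨ (G * (X * Y)) 1 0 = 0 ∨ (G * (Y * X)) 1 0 = 0 := by decide

/-- The moved places over a prime form one orbit. -/
theorem moved_orbit {A B : Place} (hc : A.char = B.char) (hA : Moved D A) (hB : Moved D B) :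
    ∃ σ ∈ Hsub D, σ • B = A := by
  obtain ⟨g', hg'⟩ := GalCommon.exists_smul_eq_of_liesOverPrime B.prime_char B.liesOver_char
    (hc ▸ A.liesOver_char)
  obtain rfl : g' • B = A := Subtype.ext hg'
  obtain ⟨h, hh, hhH⟩ := hB
  obtain ⟨d, hd, hdH⟩ := hA
  set e := g'⁻¹ * d * g' with he
  have heB : e • B = B := by
    rw [he, mul_smul, mul_smul, smul_of_decomp hd, inv_smul_smul]
  have hhB : h • B = B := smul_of_decomp hh
  have hgen : ∀ w : Gal2, w • B = B → (D.rho g' * D.rho w) 1 0 = 0 →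
      ∃ σ ∈ Hsub D, σ • B = g' • B := fun w hw hz =>
    ⟨g' * w, by rwa [mem_Hsub, map_mul], by rw [mul_smul, hw]⟩
  have hge : D.rho g' * D.rho e = D.rho d * D.rho g' := by
    rw [← map_mul, ← map_mul, he]
    congr 1
    group
  have h1 : D.rho g' * D.rho e ≠ D.rho g' := fun h' => hdH (mem_Hsub_of_rho_one D (by
    have := congrArg (· * D.rho g'⁻¹) (hge.symm.trans h')
    simpa [mul_assoc, ← map_mul] using this))
  have h2 : D.rho g' * D.rho e ≠ Umat * D.rho g' := fun h' => hdH (mem_Hsub_of_rho_U D (by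
    have := congrArg (· * D.rho g'⁻¹) (hge.symm.trans h')
    simpa [mul_assoc, ← map_mul] using this))
  rcases orbit_words _ (rho_mem D g') _ (rho_mem D h) _ (rho_mem D e) hhH h1 h2 with
    h0 | h0 | h0 | h0 | h0 | h0 | h0
  · exact hgen 1 (one_smul _ _) (by rwa [map_one, mul_one])
  · exact hgen h hhB h0
  · exact hgen e heB h0
  · exact hgen (h * h) (by rw [mul_smul, hhB, hhB]) (by rwa [map_mul])
  · exact hgen (e * e) (by rw [mul_smul, heB, heB]) (by rwa [map_mul])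
  · exact hgen (h * e) (by rw [mul_smul, heB, hhB]) (by rwa [map_mul])
  · exact hgen (e * h) (by rw [mul_smul, hhB, heB]) (by rwa [map_mul])

theorem only_w0 : ∀ v : Fin 2 → ZMod 2, Umat.mulVec v = v → v ≠ 0 → Cmat.mulVec v 1 = 1 := by
  decide

theorem moved_value : ∀ v : Fin 2 → ZMod 2, Cmat.mulVec (v + Umat.mulVec v) 1 = v 1 := by decide

theorem mulVec_upper_conj {z : Gal2 → Fin 2 → ZMod 2} (hz : D.IsCocycle z) {σ s : Gal2}
    (hσ : σ ∈ Hsub D) (hs : D.rho s = 1) : crd z (σ * s * σ⁻¹) = crd z s := by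
  rw [crd, cocycle_conj_ker hz σ hs, upper_mulVec _ (rho_mem D σ) hσ]
  rfl

/-- The decomposition of the Kummer element at a moved special place. -/
theorem exists_rational_part {S : Finset D.Aux} {y : Gal2 → Fin 2 → ZMod 2} (hy : D.IsSel S y)
    {η : Q̄ˣ} (hη : ∀ g ∈ Hsub D, g (η : Q̄) = if crd y g = 0 then (η : Q̄) else -(η : Q̄))
    {B : Place} (hB : D.IsSpecial S B.char) :
    ∃ b : Q̄ˣ, (∀ d : Gal2, d • B = B → d (b : Q̄) = b) ∧ η ^ 2 * b⁻¹ ∈ decPow 2 (Fld D) B := by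
  obtain ⟨f, hfm, hfk, hfc⟩ := exists_local_hom hy hB B.liesOver_char
  obtain ⟨L, hLf, hLg, hL⟩ := exists_level hy.cocycle
  have hf1 : f 1 = 0 := by
    have h := hfm 1 (one_mem _) 1 (one_mem _)
    rw [mul_one] at h
    exact left_eq_add.mp h
  obtain ⟨γ, hγ0, hγ⟩ := exists_kummer_elem (B.1.decompositionSubgroup ℚ) f hfm L
    fun g _ hgL => by
      have := hfk 1 g (hL g hgL).1 (hL g hgL).2
      rwa [one_mul, hf1] at this
  refine ⟨Units.mk0 γ hγ0 ^ 2, fun d hd => ?_, η * (Units.mk0 γ hγ0)⁻¹, ?_, fun σ hσ hσB => ?_⟩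
  · rw [Units.val_pow_eq_pow_val, Units.val_mk0, map_pow, hγ d (decomp_of_smul hd)]
    split_ifs <;> ring
  · rw [mul_pow, inv_pow]
  · rw [fix_Fld] at hσ
    have hσd := decomp_of_smul hσB
    rw [Units.val_mul, Units.val_inv_eq_inv_val, Units.val_mk0, map_mul, map_inv₀, hη σ hσ,
      hγ σ hσd, hfc σ hσd hσ]
    split_ifs <;> ring

open Classical in
/-- The rational idele with prescribed components at chosen places above the primes of `T`. -/
def ratPart (T : Finset ℕ) (B : ∀ n ∈ T, Place) (b : ∀ n ∈ T, Q̄ˣ) (n : ℕ) (A : Place) : Q̄ˣ :=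
  if h : n ∈ T then orb ⊥ (B n h) (b n h) A else 1

/-- The real places: the coordinate vanishes at complex conjugation. -/
theorem crd_conj {z : Gal2 → Fin 2 → ZMod 2} (hz : D.IsCocycle z) {ι : Emb} {c : Gal2}
    (hc2 : c * c = 1) (hc : ∀ a, ι (c a) = starRingEnd ℂ (ι a)) (hcH : c ∈ Hsub D) :
    crd z c = 0 := by
  obtain ⟨x, hx⟩ := IsAlgClosed.exists_pow_nat_eq (-((2 * D.m : ℕ) : Q̄)) two_pos
  have hne : D.rho c ≠ 1 := by
    intro h
    have hfix := (D.sign_field c x hx).mpr (by rw [h, one_pow])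
    have him : starRingEnd ℂ (ι x) = ι x := by rw [← hc, hfix]
    obtain ⟨r, hr⟩ := Complex.conj_eq_iff_real.mp him
    have h2 : ((r ^ 2 : ℝ) : ℂ) = ((-((2 * D.m : ℕ) : ℝ) : ℝ) : ℂ) := by
      rw [Complex.ofReal_pow, ← hr, ← map_pow, hx, map_neg, map_natCast, Complex.ofReal_neg,
        Complex.ofReal_natCast]
    have h3 : r ^ 2 = -((2 * D.m : ℕ) : ℝ) := Complex.ofReal_injective h2
    have h4 : (0 : ℝ) < ((2 * D.m : ℕ) : ℝ) := by exact_mod_cast Nat.pos_of_ne_zero two_m_ne_zero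
    linarith [sq_nonneg r]
  have hU : D.rho c = Umat := (upper_cases _ (rho_mem D c) hcH).resolve_left hne
  have h := hz.mul c c
  rw [hc2, cocycle_one hz, hU] at h
  refine fixed_U _ ?_
  have h' : Umat.mulVec (z c) = -z c := (neg_eq_of_add_eq_zero_right h.symm).symm
  rw [h']
  funext i
  exact ZModModule.neg_eq_self _

variable {S : Finset D.Aux} {q : D.Aux} {x y : Gal2 → Fin 2 → ZMod 2} {A₀ : Place} {φ : Gal2}

/-- The reciprocity step. -/
theorem unramified_of_detected (hqS : q ∉ S) (hx : D.IsSel S x) (hy : D.IsSel (insert q S) y)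
    (hA₀ : A₀.1.LiesOverPrime q.1) (hφ : A₀.1.IsFrobeniusAt φ q.1) (hφU : D.rho φ = Umat)
    (hxφ : crd x φ ≠ 0) : D.IsSel S y := by
  classical
  obtain ⟨hqp, hqN, -⟩ := q.2
  have hqspec : ¬ D.IsSpecial S q.1 := by
    rintro ⟨-, h | ⟨s, hs, hs'⟩⟩
    · exact hqN h
    · exact hqS (Subtype.ext hs' ▸ hs)
  refine ⟨hy.cocycle, fun p hp hns A hA σ hσ => ?_,
    fun v hv => hy.special v ⟨hv.1, hv.2.imp_right fun ⟨s, hs, h⟩ => ⟨s, Finset.mem_insert_of_mem hs, h⟩⟩⟩
  by_cases hpq : p ≠ q.1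
  · refine hy.unram p hp (fun h => hns ⟨h.1, h.2.imp_right ?_⟩) A hA σ hσ
    rintro ⟨s, hs, hs'⟩
    rcases Finset.mem_insert.mp hs with rfl | hs
    · exact absurd hs'.symm hpq
    · exact ⟨s, hs, hs'⟩
  obtain rfl : p = q.1 := not_not.mp hpq
  by_contra hσne
  set T := Tset D S with hTdef
  set T' := Tset D (insert q S) with hT'def
  have hT := goodSet_Tset S
  have hT' : GoodSet D T' := goodSet_Tset _
  have hqT : q.1 ∉ T := fun h => hqspec (mem_Tset.mp h)
  have hA0q : A₀.char = q.1 := A₀.char_eq hqp hA₀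
  have hnT : ∀ A : Place, A.char = q.1 → ¬ A.Over T := fun A h h' => hqT (h ▸ A.over_iff.mp h')
  have hker : ∀ A : Place, A.char = q.1 → ∀ s ∈ A.1.inertiaSubgroupIn ℚ, D.rho s = 1 :=
    fun A h s hs => inertia_rho hT (hnT A h) hs
  -- move the ramification to `A₀`
  obtain ⟨g, hg⟩ := GalCommon.exists_smul_eq_of_liesOverPrime hqp hA hA₀
  set s := g * σ * g⁻¹ with hs_def
  have hs : s ∈ A₀.1.inertiaSubgroupIn ℚ := hg ▸ GalCommon.mem_inertia_conj hσ g
  have hρs := hker A₀ hA0q s hs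
  have hspec' : D.IsSpecial (insert q S) q.1 :=
    ⟨hqp, Or.inr ⟨q, Finset.mem_insert_self _ _, rfl⟩⟩
  have hfix0 : ∀ t ∈ A₀.1.inertiaSubgroupIn ℚ, Umat.mulVec (y t) = y t := fun t ht => by
    obtain ⟨a, ha⟩ := hy.special q.1 hspec' A₀.1 hA₀
    have h := ha t (GalCommon.mem_inertiaSubgroupIn_iff.mp ht).1 φ hφ.mem_decompositionSubgroup
    rw [hker A₀ hA0q t ht, Matrix.one_mulVec, sub_self, sub_zero, hφU] at h
    exact h
  have hys : y s ≠ 0 := fun h0 => hσne (by
    let AA : Place := ⟨A, q.1, hqp, hA⟩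
    have hρσ := inertia_rho hT (A := AA) (hnT AA (AA.char_eq hqp hA)) hσ
    have h := cocycle_conj_ker hy.cocycle g hρσ
    rw [← hs_def, h0] at h
    have h' := congrArg ((D.rho g⁻¹).mulVec) h.symm
    rwa [Matrix.mulVec_mulVec, Matrix.mulVec_zero, ← map_mul, inv_mul_cancel, map_one,
      Matrix.one_mulVec] at h')
  obtain ⟨gC, hgC⟩ := exists_rho D Cmat (by decide)
  set B := gC • A₀ with hBdef
  have hBq : B.char = q.1 := by rw [hBdef, Place.char_smul, hA0q]
  have hB : B.1.LiesOverPrime q.1 := GalCommon.liesOverPrime_smul hA₀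
  set sB := gC * s * gC⁻¹ with hsBdef
  have hsB : sB ∈ B.1.inertiaSubgroupIn ℚ := GalCommon.mem_inertia_conj hs gC
  have hsBy : crd y sB = 1 := by
    rw [hsBdef, crd, cocycle_conj_ker hy.cocycle gC hρs, hgC]
    exact only_w0 _ (hfix0 s hs) hys
  -- the two orbits above `q`
  have hA0fix : ∀ t ∈ A₀.1.inertiaSubgroupIn ℚ, crd y t = 0 := fun t ht =>
    fixed_U _ (hfix0 t ht)
  have hdist : ¬ ∃ τ ∈ (Fld D).fixingSubgroup, τ • B = A₀ := by
    rintro ⟨τ, hτ, he⟩
    rw [fix_Fld] at hτ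
    have h := GalCommon.mem_inertia_conj hsB τ
    rw [← Place.coe_smul, he] at h
    have h' := hA0fix _ h
    rw [mulVec_upper_conj hy.cocycle hτ (hker B hBq sB hsB), hsBy] at h'
    exact one_ne_zero h'
  -- Kummer element of `y`
  have hcy := isChar_crd hy (subset_refl T')
  obtain ⟨η, hη2, hη, hηunr⟩ := hcy.exists_kummer hT'
  obtain ⟨k, hk⟩ := exists_val B (y := (η : Q̄) ^ 2) (by simp) fun t ht =>
    (IntermediateField.mem_fixingSubgroup_iff _ _).mp
      (by rw [fix_Fld]; exact mem_Hsub_of_rho_one D (hker B hBq t ht)) _ hη2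
  have hodd : Odd k := odd_of_moved B (by
      rw [hBq]
      exact fun h => hqN (h ▸ dvd_mul_right 2 D.m))
    η.ne_zero hsB (by rw [hη sB (mem_Hsub_of_rho_one D (hker B hBq sB hsB)), if_neg (by simp [hsBy])])
    hk
  -- the symbol of `x`
  obtain ⟨lam, hlam⟩ := exists_symbol hT (isChar_crd hx (subset_refl T))
  set K := kerSub lam with hKdef
  -- the rational part
  have hdata : ∀ n ∈ T, ∃ Bn : Place, ∃ b : Q̄ˣ, Bn.char = n ∧ Moved D Bn ∧
      (∀ d : Gal2, d • Bn = Bn → d (b : Q̄) = b) ∧ η ^ 2 * b⁻¹ ∈ decPow 2 (Fld D) Bn := by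
    intro n hn
    obtain ⟨Bn, hBn, hmv⟩ := exists_moved_place (mem_Tset.mp hn)
    have hsp : D.IsSpecial (insert q S) Bn.char := by
      obtain ⟨h1, h2⟩ := mem_Tset.mp hn
      rw [hBn]
      exact ⟨h1, h2.imp_right fun ⟨s, hs, h⟩ => ⟨s, Finset.mem_insert_of_mem hs, h⟩⟩
    obtain ⟨b, hb1, hb2⟩ := exists_rational_part hy hη hsp
    exact ⟨Bn, b, hBn, hmv, hb1, hb2⟩
  choose Bn bn hBn hmv hbfix hbdec using hdata
  set β : PreIdele := finIdele fun A => ratPart T Bn bn A.char A with hβdef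
  have hstab : ∀ n (hn : n ∈ T), ∀ τ ∈ (⊥ : IntermediateField ℚ Q̄).fixingSubgroup,
      τ • Bn n hn = Bn n hn → τ (bn n hn : Q̄) = bn n hn := fun n hn τ _ h => hbfix n hn τ h
  have hβ : β ∈ ideles ⊥ := by
    refine finIdele_mem (fun τ hτ A => ?_) T fun A hA => ?_
    · rw [Place.char_smul]
      unfold ratPart
      split_ifs with h
      · exact orb_equivariant (hstab _ h) hτ A
      · rw [Units.val_one, map_one]
    · show ratPart T Bn bn A.char A ∈ _
      rw [ratPart, dif_neg fun h => hA (A.over_iff.mpr h)]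
      exact one_mem _
  have hβK : β ∈ K := rat_mem hT hx.cocycle hlam hβ
  have hβF : β ∈ ideles (Fld D) := ideles_le_of_le bot_le hβ
  set P := PreIdele.principalHom (η ^ 2) with hPdef
  have hη2' : ((η ^ 2 : Q̄ˣ) : Q̄) ∈ Fld D := by rw [Units.val_pow_eq_pow_val]; exact hη2
  have hPF : P ∈ ideles (Fld D) := principalHom_mem_ideles hη2'
  have hPK : P ∈ K :=
    classKer_le_kerSub hlam (Subgroup.mem_sup_left ⟨_, hη2', rfl⟩)
  -- the fixed places above `T`
  set χ := restrIdele (fun A => A.Over T ∧ ¬ Moved D A) (fun _ => False) (P * β⁻¹) with hχdef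
  have hχF : χ ∈ ideles (Fld D) := restr_mem_ideles (mul_mem hPF (inv_mem hβF))
    (fun τ hτ A => by rw [fix_Fld] at hτ; rw [Place.over_smul_iff, moved_smul hτ])
    (fun _ _ _ => Iff.rfl) fun _ => Iff.rfl
  have hχinf : χ.inf = 1 := funext fun ι => restr_inf_of_neg (W := fun _ => False) not_false
  have hχK : χ ∈ K := by
    refine mem_kerSub.mpr ⟨hχF, hlam.split _ hχinf fun A hA τ hτ hτA => ?_⟩
    have hZ : A.Over T ∧ ¬ Moved D A := by
      by_contra h
      exact hA (restr_fin_of_neg (Z := fun A => A.Over T ∧ ¬ Moved D A) h)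
    refine crd_eq_zero_of_fixed hx (mem_Tset.mp (A.over_iff.mp hZ.1)) A.liesOver_char
      (fun d hd => ?_) (decomp_of_smul hτA)
    by_contra hdH
    exact hZ.2 ⟨d, hd, hdH⟩
  -- the place of degree two above `q`
  have hPBF := placeIdele_mem_ideles (F := Fld D) hqp hB
  set PB := placeIdele (Fld D) q.1 hqp.ne_zero B with hPBdef
  have hPB1 : ∀ A : Place, A.char ≠ q.1 → PB.fin A = 1 := fun A hA =>
    placeIdele_fin_of_not q.1 hqp.ne_zero fun ⟨τ, _, h⟩ => hA (by rw [← h, Place.char_smul, hBq])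
  -- the remainder
  set θ := P * (β * χ * PB ^ k)⁻¹ with hθdef
  have hθF : θ ∈ ideles (Fld D) := mul_mem hPF (inv_mem (mul_mem (mul_mem hβF hχF) (zpow_mem hPBF k)))
  have hθfin : ∀ A : Place,
      θ.fin A = η ^ 2 * (ratPart T Bn bn A.char A * χ.fin A * PB.fin A ^ k)⁻¹ := fun A => by
    show finHom A (P * (β * χ * PB ^ k)⁻¹) = _
    rw [map_mul, map_inv, map_mul, map_mul, map_zpow]
    rfl
  have hθinf : ∀ ι : Emb, (θ.inf ι : ℂ) = (ι (η : Q̄)) ^ 2 := fun ι => by
    show (infHom ι (P * (β * χ * PB ^ k)⁻¹) : ℂ) = _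
    rw [map_mul, map_inv, map_mul, map_mul, map_zpow, show infHom ι χ = 1 from congrFun hχinf ι,
      show infHom ι β = 1 from rfl, show infHom ι PB = 1 from rfl, one_zpow, one_mul, one_mul,
      inv_one, mul_one]
    show ι ((η ^ 2 : Q̄ˣ) : Q̄) = _
    rw [Units.val_pow_eq_pow_val, map_pow]
  have hθW : θ ∈ awayIdeles T (Fld D) ⊔ powIdeles 2 (Fld D) := by
    refine mem_away_sup_pow hθF (fun A hA => ?_) fun ι hι => ?_
    · have hAq : A.char ≠ q.1 := fun h => hnT A h hA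
      have hAT := A.over_iff.mp hA
      rw [hθfin, hPB1 A hAq, one_zpow, mul_one]
      by_cases hmA : Moved D A
      · rw [hχdef, restr_fin_of_neg (Z := fun A => A.Over T ∧ ¬ Moved D A) (fun h => h.2 hmA), mul_one]
        obtain ⟨τ, hτ, hτA⟩ := moved_orbit (hBn _ hAT).symm hmA (hmv _ hAT)
        have hτ' : τ ∈ (Fld D).fixingSubgroup := by rwa [fix_Fld]
        have h := smul_mem_decPow hτ' (hbdec _ hAT)
        rw [hτA] at h
        have hval : Units.map (τ : Q̄ →* Q̄) (η ^ 2 * (bn _ hAT)⁻¹) =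
            η ^ 2 * (ratPart T Bn bn A.char A)⁻¹ := by
          rw [map_mul, map_inv]
          congr 1
          · refine Units.ext ?_
            show τ ((η ^ 2 : Q̄ˣ) : Q̄) = _
            exact (IntermediateField.mem_fixingSubgroup_iff _ _).mp hτ' _ hη2'
          · refine congrArg _ (Units.ext ?_)
            rw [ratPart, dif_pos hAT]
            have h3 := orb_smul (hstab _ hAT) (mem_fix_bot τ)
            rw [hτA] at h3
            exact h3.symm
        rwa [hval] at h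
      · rw [hχdef, restr_fin_of_pos (Z := fun A => A.Over T ∧ ¬ Moved D A) ⟨hA, hmA⟩]
        show η ^ 2 * (ratPart T Bn bn A.char A * finHom A (P * β⁻¹))⁻¹ ∈ _
        rw [map_mul, map_inv, show finHom A P = η ^ 2 from rfl,
          show finHom A β = ratPart T Bn bn A.char A from rfl, mul_left_comm (ratPart T Bn bn A.char A),
          mul_inv_cancel, mul_one, mul_inv_cancel]
        exact one_mem _
    · obtain ⟨c, hc2, hc⟩ := exists_conj ι
      have hcF : c ∈ Hsub D := by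
        rw [← fix_Fld, IntermediateField.mem_fixingSubgroup_iff]
        intro a ha
        refine ι.injective ?_
        rw [hc]
        exact RingHom.congr_fun hι ⟨a, ha⟩
      have hcη : c (η : Q̄) = η := by
        rw [hη c hcF, if_pos (crd_conj hy.cocycle hc2 hc hcF)]
      obtain ⟨r, hr⟩ := Complex.conj_eq_iff_real.mp (show starRingEnd ℂ (ι (η : Q̄)) = ι η by
        rw [← hc, hcη])
      exact ⟨r, by rw [hθinf, hr]⟩
  obtain ⟨a, ha, w, hw, haw⟩ := Subgroup.mem_sup.mp hθW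
  -- even valuations away from `T`
  have hwval : ∀ A : Place, ¬ A.Over T →
      ∃ j : ℤ, A.1.valuation (w.fin A : Q̄) = A.1.valuation (A.char : Q̄) ^ (2 * j) := by
    intro A hA
    obtain ⟨ψ, hψ, rfl⟩ := hw
    obtain ⟨j, hj⟩ := exists_val A (ψ.fin A).ne_zero fun t ht => fin_fixed hψ A
      (by rw [fix_Fld]; exact mem_Hsub_of_rho_one D (inertia_rho hT hA ht))
      (smul_of_decomp (GalCommon.mem_inertiaSubgroupIn_iff.mp ht).1)
    refine ⟨j, ?_⟩
    show A.1.valuation ((finHom A (ψ ^ 2) : Q̄ˣ) : Q̄) = _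
    rw [map_pow, Units.val_pow_eq_pow_val, map_pow, show ((finHom A ψ : Q̄ˣ) : Q̄) = ψ.fin A from rfl,
      hj, mul_comm 2 j, zpow_mul, zpow_ofNat]
  have hθout : ∀ A : Place, ¬ A.Over T →
      (θ.fin A : Q̄) = (η : Q̄) ^ 2 * ((PB.fin A : Q̄) ^ k)⁻¹ := fun A hA => by
    rw [hθfin, hχdef, restr_fin_of_neg (Z := fun A => A.Over T ∧ ¬ Moved D A) (fun h => hA h.1),
      ratPart, dif_neg fun h => hA (A.over_iff.mpr h), one_mul, one_mul, Units.val_mul,
      Units.val_inv_eq_inv_val, Units.val_zpow_eq_zpow_val, Units.val_pow_eq_pow_val]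
  have hunit : ∀ A : Place, (∀ t ∈ A.1.inertiaSubgroupIn ℚ, t (η : Q̄) = η) →
      ∃ j : ℤ, A.1.valuation ((η : Q̄) ^ 2) = A.1.valuation (A.char : Q̄) ^ (2 * j) := by
    intro A h
    obtain ⟨j, hj⟩ := exists_val A η.ne_zero h
    exact ⟨j, by rw [map_pow, hj, mul_comm 2 j, zpow_mul, zpow_ofNat]⟩
  have hθval : ∀ A : Place, ¬ A.Over T →
      ∃ j : ℤ, A.1.valuation (θ.fin A : Q̄) = A.1.valuation (A.char : Q̄) ^ (2 * j) := by
    intro A hA
    by_cases hAq : A.char = q.1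
    · -- reduce to `A₀` and `B`
      have key : ∀ A' : Place, A'.char = q.1 → ∀ τ ∈ Hsub D, τ • A' = A →
          (∃ j : ℤ, A'.1.valuation (θ.fin A' : Q̄) = A'.1.valuation (A'.char : Q̄) ^ (2 * j)) →
          ∃ j : ℤ, A.1.valuation (θ.fin A : Q̄) = A.1.valuation (A.char : Q̄) ^ (2 * j) := by
        rintro A' - τ hτ rfl ⟨j, hj⟩
        refine ⟨j, ?_⟩
        rw [← map_zpow₀] at hj ⊢
        have h := (valuation_smul_eq_iff τ A').mpr hj
        rw [coe_smul_fin hθF (by rwa [fix_Fld]), Place.char_smul]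
        rwa [map_zpow₀, map_natCast τ] at h
      obtain ⟨g', hg'⟩ := GalCommon.exists_smul_eq_of_liesOverPrime hqp hA₀ (hAq ▸ A.liesOver_char)
      obtain rfl : g' • A₀ = A := Subtype.ext hg'
      have hA0val : ∃ j : ℤ, A₀.1.valuation (θ.fin A₀ : Q̄) =
          A₀.1.valuation (A₀.char : Q̄) ^ (2 * j) := by
        rw [hθout A₀ (hnT A₀ hA0q), hPBdef, placeIdele_fin_of_not q.1 hqp.ne_zero hdist,
          Units.val_one, one_zpow, inv_one, mul_one]
        refine hunit A₀ fun t ht => ?_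
        rw [hη t (mem_Hsub_of_rho_one D (hker A₀ hA0q t ht)), if_pos (hA0fix t ht)]
      have hBval : ∃ j : ℤ, B.1.valuation (θ.fin B : Q̄) = B.1.valuation (B.char : Q̄) ^ (2 * j) := by
        refine ⟨0, ?_⟩
        rw [hθout B (hnT B hBq), hPBdef, placeIdele_fin_self, map_mul, map_inv₀, map_zpow₀, hk,
          hBq, mul_zero, zpow_zero, mul_inv_cancel₀ (zpow_ne_zero _ (by simpa using hqp.ne_zero))]
      rcases invol_cover _ (rho_mem D g') with h | h | h
      · exact key A₀ hA0q g' h rfl hA0val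
      · refine key B hBq (g' * gC⁻¹) (by rwa [mem_Hsub, map_mul, rho_inv_Cmat hgC]) ?_ hBval
        rw [hBdef, ← mul_smul, inv_mul_cancel_right]
      · refine key B hBq (g' * φ * gC⁻¹)
          (by rwa [mem_Hsub, map_mul, map_mul, rho_inv_Cmat hgC, hφU]) ?_ hBval
        rw [hBdef, ← mul_smul, inv_mul_cancel_right, mul_smul,
          smul_of_decomp hφ.mem_decompositionSubgroup]
    · rw [hθout A hA, hPB1 A hAq, Units.val_one, one_zpow, inv_one, mul_one]
      refine hunit A (hηunr A fun h => hA ?_)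
      rw [Place.over_iff, hT'def, mem_Tset] at h
      rw [Place.over_iff, hTdef, mem_Tset]
      refine ⟨h.1, h.2.imp_right ?_⟩
      rintro ⟨s, hs, hs'⟩
      rcases Finset.mem_insert.mp hs with rfl | hs
      · exact absurd hs'.symm hAq
      · exact ⟨s, hs, hs'⟩
  have haK : a ∈ K := by
    have h := mem_pow_sup_unit ha fun A hA => by
      obtain ⟨i, hi⟩ := hwval A hA
      obtain ⟨j, hj⟩ := hθval A hA
      refine ⟨j - i, ?_⟩
      rw [← haw, show ((a * w).fin A : Q̄) = (a.fin A : Q̄) * (w.fin A : Q̄) from rfl, map_mul, hi]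
        at hj
      rw [mul_sub, zpow_sub₀ A.valuation_char_ne_zero, eq_div_iff
        (zpow_ne_zero _ A.valuation_char_ne_zero), hj]
    obtain ⟨u, hu, u', hu', rfl⟩ := Subgroup.mem_sup.mp h
    exact mul_mem (pow_le_kerSub hlam hu) (classKer_le_kerSub hlam (Subgroup.mem_sup_right hu'))
  have hθK : θ ∈ K := haw ▸ mul_mem haK (pow_le_kerSub hlam hw)
  have hkK : PB ^ k ∈ K := by
    have e : PB ^ k = P * θ⁻¹ * (β * χ)⁻¹ := by
      rw [hθdef, mul_inv P, inv_inv, mul_inv_cancel_left, mul_right_comm, mul_inv_cancel, one_mul]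
    rw [e]
    exact mul_mem (mul_mem hPK (inv_mem hθK)) (inv_mem (mul_mem hβK hχK))
  obtain ⟨i, hi⟩ := hodd
  have h2K : PB ^ 2 ∈ K := pow_le_kerSub hlam ⟨PB, hPBF, rfl⟩
  have hPBK : PB ∈ K := by
    have e : PB = PB ^ k * ((PB ^ 2) ^ i)⁻¹ := by
      rw [hi, zpow_add, zpow_mul, zpow_ofNat, zpow_one, mul_comm ((PB ^ 2) ^ i), mul_inv_cancel_right]
    rw [e]
    exact mul_mem hkK (inv_mem (zpow_mem h2K i))
  -- the value there
  obtain ⟨h, h1⟩ := mem_kerSub.mp hPBK
  have hψ : B.1.IsFrobeniusAt (gC * φ * gC⁻¹) q.1 := GalCommon.isFrobeniusAt_conj hφ gC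
  have hmem2 : (gC * φ * gC⁻¹) ^ 2 ∈ Hsub D := mem_Hsub_of_rho_one D (by
    rw [map_pow, map_mul, map_mul, hgC, rho_inv_Cmat hgC, hφU]; decide)
  have hval := hlam.frob q.1 hqp B hqT hB _ hψ 2 two_pos hmem2 (fun j hj hj' => by
    rw [show j = 1 by omega, pow_one, mem_Hsub, map_mul, map_mul, hgC, rho_inv_Cmat hgC, hφU]
    exact U_moved) h
  rw [h1] at hval
  refine hxφ ?_
  have h0 := (sgn_eq_one_iff _).mp hval.symm
  rw [crd, show (gC * φ * gC⁻¹) ^ 2 = gC * (φ * φ) * gC⁻¹ by rw [pow_two]; group,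
    cocycle_conj_ker hx.cocycle gC (by rw [map_mul, hφU]; decide), hx.cocycle.mul, hgC, hφU,
    moved_value] at h0
  exact h0

end FLTAgent.Mod2.Select
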