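import Fermat.Agent.Mod2.Select.Symbol
import Fermat.Agent.Mod2.Select.Step
import Fermat.Agent.TW.Idele.Basic

/-!
# Finiteness of the Selmer group

`C_T(F) / 2` is finite once the `T`-class group is trivial, and a class is determined by its
character of that group, as Frobenius elements are dense.

Main declarations: `finite_classes`, `finite_classes_empty`.
-/

set_option autoImplicit false
set_option synthInstance.maxHeartbeats 200000

noncomputable section

open scoped Pointwise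

namespace FLTAgent.Mod2.Select

open TW

local notation "Q̄" => AlgebraicClosure ℚ

variable {D : Setup} {T : Finset ℕ}

/-- `C_T(F) / 2` is finite. -/
theorem finite_classes (hT : GoodSet D T) (hP : TPrincipal T (Fld D)) :
    Finite (ideles (Fld D) ⧸
      (classKer T (Fld D) ⊔ powIdeles 2 (Fld D)).subgroupOf (ideles (Fld D))) := by
  classical
  set F := Fld D with hF
  set K₀ := classKer T F ⊔ powIdeles 2 F with hK₀
  set W := awayIdeles T F ⊔ powIdeles 2 F with hW
  have : Finite (ideles F ⧸ W.subgroupOf (ideles F)) := by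
    apply Nat.finite_of_card_ne_zero
    show W.relIndex (ideles F) ≠ 0
    rw [hW, relIndex_away_sup_pow' (p := 2) hT.prime hT.two_mem (containsMu D)]
    exact pow_ne_zero _ two_ne_zero
  have hrep : ∀ c : ideles F ⧸ K₀.subgroupOf (ideles F), ∃ φ : ideles F,
      (QuotientGroup.mk φ : ideles F ⧸ K₀.subgroupOf (ideles F)) = c ∧
      ∀ A : Place, ¬ A.Over T → φ.1.fin A ∈ A.1.unitGroup := by
    intro c
    induction c using QuotientGroup.induction_on with
    | _ φ =>
      obtain ⟨x, hx, hu⟩ := hP φ.1 φ.2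
      have hxF : PreIdele.principalHom x⁻¹ ∈ ideles F := principalHom_mem_ideles
        (by rw [Units.val_inv_eq_inv_val]; exact inv_mem hx)
      refine ⟨⟨φ.1 * PreIdele.principalHom x⁻¹, mul_mem φ.2 hxF⟩, ?_, hu⟩
      rw [QuotientGroup.eq, Subgroup.mem_subgroupOf]
      show (φ.1 * PreIdele.principalHom x⁻¹)⁻¹ * φ.1 ∈ K₀
      rw [mul_inv_rev, inv_mul_cancel_right, ← map_inv, inv_inv]
      exact Subgroup.mem_sup_left (Subgroup.mem_sup_left ⟨x, hx, rfl⟩)
  choose rep hrep1 hrep2 using hrep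
  refine Finite.of_injective
    (fun c => (QuotientGroup.mk (rep c) : ideles F ⧸ W.subgroupOf (ideles F))) fun c c' h => ?_
  rw [← hrep1 c, ← hrep1 c', QuotientGroup.eq, Subgroup.mem_subgroupOf]
  rw [QuotientGroup.eq, Subgroup.mem_subgroupOf] at h
  set θ := ((rep c)⁻¹ * rep c' : ideles F).1 with hθ
  obtain ⟨a, ha, w, hw, haw⟩ := Subgroup.mem_sup.mp h
  rw [← haw]
  refine mul_mem ?_ (Subgroup.mem_sup_right hw)
  have hev : a ∈ powIdeles 2 F ⊔ unitIdeles T F := mem_pow_sup_unit ha fun A hA => by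
    obtain ⟨ψ, hψ, rfl⟩ := hw
    obtain ⟨j, hj⟩ := exists_val A (ψ.fin A).ne_zero fun t ht => fin_fixed hψ A
      (by rw [hF, fix_Fld]; exact mem_Hsub_of_rho_one D (inertia_rho hT hA ht))
      (smul_of_decomp (GalCommon.mem_inertiaSubgroupIn_iff.mp ht).1)
    refine ⟨-j, ?_⟩
    have hθA : A.1.valuation (θ.fin A : Q̄) = 1 := mem_unitGroup_iff.mp
      (mul_mem (inv_mem (hrep2 c A hA)) (hrep2 c' A hA))
    rw [← haw] at hθA
    have h1 : A.1.valuation (a.fin A : Q̄) * A.1.valuation (ψ.fin A : Q̄) ^ 2 = 1 := by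
      have hθA' : A.1.valuation ((finHom A (a * ψ ^ 2) : Q̄ˣ) : Q̄) = 1 := hθA
      rw [map_mul, map_pow, Units.val_mul, Units.val_pow_eq_pow_val, map_mul, map_pow] at hθA'
      exact hθA'
    rw [hj, ← zpow_natCast, ← zpow_mul, Nat.cast_ofNat, mul_comm j 2] at h1
    rw [mul_neg, zpow_neg]
    exact eq_inv_of_mul_eq_one_left h1
  obtain ⟨u, hu, u', hu', rfl⟩ := Subgroup.mem_sup.mp hev
  exact mul_mem (Subgroup.mem_sup_right hu) (Subgroup.mem_sup_left (Subgroup.mem_sup_right hu'))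

theorem sgn_injective : Function.Injective sgn := fun a b h => by
  have h1 : sgn (a + b) = 1 := by rw [sgn_add, h, ← sgn_add, CharTwo.add_self_eq_zero, sgn_zero]
  exact CharTwo.add_eq_zero.mp ((sgn_eq_one_iff _).mp h1)

/-- Two cocycles with the same character have the same coordinate. -/
theorem crd_eq_of_symbol (hT : GoodSet D T) {z₁ z₂ : Gal2 → Fin 2 → ZMod 2}
    (h₁ : D.IsCocycle z₁) (h₂ : D.IsCocycle z₂) {lam : ideles (Fld D) →* (AlgebraicClosure ℚ)ˣ}
    (hs₁ : IsSymbol D T (crd z₁) lam) (hs₂ : IsSymbol D T (crd z₂) lam) {σ : Gal2}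
    (hσ : σ ∈ Hsub D) : crd z₁ σ = crd z₂ σ := by
  obtain ⟨L₁, hf₁, hg₁, hL₁⟩ := exists_level h₁
  obtain ⟨L₂, hf₂, hg₂, hL₂⟩ := exists_level h₂
  have := GalCommon.isGalois_Qbar
  have : L₁.fixingSubgroup.Normal := (InfiniteGalois.normal_iff_isGalois L₁).mpr hg₁
  have : L₂.fixingSubgroup.Normal := (InfiniteGalois.normal_iff_isGalois L₂).mpr hg₂
  set U := L₁.fixingSubgroup ⊓ L₂.fixingSubgroup with hU
  have hUo : IsOpen (U : Set Gal2) := by
    rw [hU, Subgroup.coe_inf]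
    exact L₁.fixingSubgroup_isOpen.inter L₂.fixingSubgroup_isOpen
  have key := Density.forall_of_forall_isFrobeniusAt
    (P := fun g => ∀ n : ℕ, g ^ n ∈ Hsub D → crd z₁ (g ^ n) = crd z₂ (g ^ n)) U hUo T
    (fun g u hu hg n hn => ?_) (fun g k hg n hn => ?_) (fun ℓ hℓ hℓT A hA τ hτ n hn => ?_) σ 1
    (by rwa [pow_one])
  · rwa [pow_one] at key
  · have hq : ((g * u) ^ n : Gal2 ⧸ U) = ((g ^ n : Gal2) : Gal2 ⧸ U) := by
      rw [QuotientGroup.mk_pow, (QuotientGroup.eq_one_iff u).mpr hu, mul_one]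
    have hu' : (g ^ n)⁻¹ * (g * u) ^ n ∈ U := QuotientGroup.eq.mp (by rw [← hq]; rfl)
    have e : (g * u) ^ n = g ^ n * ((g ^ n)⁻¹ * (g * u) ^ n) := (mul_inv_cancel_left _ _).symm
    obtain ⟨hu₁, hu₂⟩ := Subgroup.mem_inf.mp hu'
    have hgn : g ^ n ∈ Hsub D := by
      rw [e] at hn
      rw [mem_Hsub, map_mul, (hL₁ _ hu₁).1, mul_one] at hn
      exact hn
    rw [e, crd, crd, (hL₁ _ hu₁).2, (hL₂ _ hu₂).2]
    exact hg n hgn
  · rw [← pow_mul] at hn ⊢
    exact hg _ hn
  · let A' : Place := ⟨A, ℓ, hℓ, hA⟩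
    obtain ⟨f, hf, hfm, hfmin⟩ := exists_least_pow_mem_fixing (Fld D) τ
    rw [fix_Fld] at hfm hfmin
    obtain ⟨c, rfl⟩ := dvd_of_pow_mem hf hfm hfmin hn
    have hmem := placeIdele_mem_ideles (F := Fld D) hℓ (A := A') hA
    have h := (hs₁.frob ℓ hℓ A' hℓT hA τ hτ f hf hfm hfmin hmem).symm.trans
      (hs₂.frob ℓ hℓ A' hℓT hA τ hτ f hf hfm hfmin hmem)
    rw [pow_mul, crd_pow h₁ hfm, crd_pow h₂ hfm, sgn_injective h]

open Classical in
/-- The coordinate of a cocycle, extended by zero. -/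
def res (D : Setup) (z : Gal2 → Fin 2 → ZMod 2) (σ : Gal2) : ZMod 2 :=
  if σ ∈ Hsub D then crd z σ else 0

theorem res_of_mem {z : Gal2 → Fin 2 → ZMod 2} {σ : Gal2} (h : σ ∈ Hsub D) :
    res D z σ = crd z σ := if_pos h

/-- The coordinates of the Selmer cocycles. -/
def classes (D : Setup) (S : Finset D.Aux) : Set (Gal2 → ZMod 2) :=
  res D '' {z | D.IsSel S z}

/-- The Selmer classes without auxiliary primes are finite in number. -/
theorem finite_classes_empty (D : Setup) : (classes D ∅).Finite := by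
  classical
  obtain ⟨T, hTT, hTp, hP⟩ := exists_tPrincipal' (Fld D) (Tset D ∅)
  have hT : GoodSet D T := ⟨fun q hq => (hTp q hq).elim (fun h => (goodSet_Tset ∅).prime q h) id,
    fun q hq hd => hTT ((goodSet_Tset ∅).cond q hq hd)⟩
  have := finite_classes hT (hP _ le_rfl)
  set K₀ := classKer T (Fld D) ⊔ powIdeles 2 (Fld D)
  have hsym : ∀ z : {z // D.IsSel ∅ z}, ∃ lam, IsSymbol D T (crd z.1) lam := fun z =>
    exists_symbol hT (isChar_crd z.2 hTT)
  choose lam hlam using hsym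
  let Φ : {z // D.IsSel ∅ z} → ((ideles (Fld D) ⧸ K₀.subgroupOf (ideles (Fld D))) → Bool) :=
    fun z c => decide (lam z (Quotient.out c) = 1)
  have hout : ∀ z (φ : ideles (Fld D)),
      lam z φ = lam z (Quotient.out (QuotientGroup.mk φ :
        ideles (Fld D) ⧸ K₀.subgroupOf (ideles (Fld D)))) := by
    intro z φ
    have h : (QuotientGroup.mk φ : ideles (Fld D) ⧸ K₀.subgroupOf (ideles (Fld D))) =
        QuotientGroup.mk (Quotient.out (QuotientGroup.mk φ :
          ideles (Fld D) ⧸ K₀.subgroupOf (ideles (Fld D)))) := (QuotientGroup.out_eq' _).symm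
    set ψ := Quotient.out (QuotientGroup.mk φ : ideles (Fld D) ⧸ K₀.subgroupOf (ideles (Fld D)))
    rw [QuotientGroup.eq, Subgroup.mem_subgroupOf] at h
    obtain ⟨a, ha, b, hb, hab⟩ := Subgroup.mem_sup.mp h
    obtain ⟨b', hb', rfl⟩ := hb
    have e : φ⁻¹ * ψ = ⟨a, classKer_le_ideles' ha⟩ * ⟨b', hb'⟩ ^ 2 := Subtype.ext hab.symm
    have h1 : lam z (φ⁻¹ * ψ) = 1 := by
      rw [e, map_mul, (hlam z).ker ⟨a, _⟩ ha, map_pow, (hlam z).sq, one_mul]
    rw [map_mul, map_inv, inv_mul_eq_one] at h1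
    exact h1
  have hdet : ∀ z z', Φ z = Φ z' → lam z = lam z' := by
    intro z z' h
    refine MonoidHom.ext fun φ => ?_
    rw [hout z φ, hout z' φ]
    set ψ := Quotient.out (QuotientGroup.mk φ : ideles (Fld D) ⧸ K₀.subgroupOf (ideles (Fld D)))
    have h' : (lam z ψ = 1) ↔ (lam z' ψ = 1) := decide_eq_decide.mp (congrFun h _)
    have hpm : ∀ w : (AlgebraicClosure ℚ)ˣ, w ^ 2 = 1 → w = 1 ∨ w = -1 := by
      intro w hw
      rcases sq_eq_one_iff.mp (show (w : Q̄) ^ 2 = 1 by rw [← Units.val_pow_eq_pow_val, hw, Units.val_one])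
        with h | h
      · exact Or.inl (Units.ext h)
      · exact Or.inr (Units.ext (by rw [h, Units.val_neg, Units.val_one]))
    rcases hpm _ ((hlam z).sq ψ) with h1 | h1 <;> rcases hpm _ ((hlam z').sq ψ) with h2 | h2
    · rw [h1, h2]
    · rw [h1, h'.mp h1]
    · rw [h'.mpr h2, h2]
    · rw [h1, h2]
  have hfac : ∀ z z', Φ z = Φ z' → res D z.1 = res D z'.1 := by
    intro z z' h
    funext σ
    unfold res
    split_ifs with hσ
    · exact crd_eq_of_symbol hT z.2.cocycle z'.2.cocycle (hlam z) (hdet z z' h ▸ hlam z') hσ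
    · rfl
  have hrange : (Set.range fun z : {z // D.IsSel ∅ z} => res D z.1).Finite := by
    refine Set.Finite.subset ((Set.finite_range fun f : Set.range Φ => res D f.2.choose.1)) ?_
    rintro _ ⟨z, rfl⟩
    refine ⟨⟨Φ z, z, rfl⟩, ?_⟩
    exact hfac _ _ (Exists.choose_spec (⟨z, rfl⟩ : ∃ z', Φ z' = Φ z))
  refine hrange.subset ?_
  rintro _ ⟨z, hz, rfl⟩
  exact ⟨⟨z, hz⟩, rfl⟩

end FLTAgent.Mod2.Select
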