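import Fermat.Agent.TW.Idele.Counts
import Fermat.Agent.Density.Main
import Fermat.Agent.TW.Idele.ClassField.IdeleAux
import Fermat.Agent.TW.Idele.ClassField.KummerExt

/-!
# Elementary tools on places and ideles for the selection of auxiliary primes

Kummer elements of characters, ideles supported on an orbit, and ideles with even valuations.

Main declarations: `exists_kummer_elem`, `orb`, `mem_pow_sup_unit`.
-/

set_option autoImplicit false
set_option synthInstance.maxHeartbeats 200000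

noncomputable section

open scoped Pointwise

namespace FLTAgent.Mod2.Select

open TW

local notation "Q̄" => AlgebraicClosure ℚ
local notation "Γ" => (AlgebraicClosure ℚ ≃ₐ[ℚ] AlgebraicClosure ℚ)

/-! ### Complex conjugations and Kummer elements -/

theorem exists_conj (ι : Emb) : ∃ c : Γ, c * c = 1 ∧ ∀ a, ι (c a) = starRingEnd ℂ (ι a) := by
  have h : ι.res ⊥ = ι.conj.res (⊥ : IntermediateField ℚ Q̄) := by
    refine RingHom.ext fun x => ?_
    obtain ⟨r, hr⟩ := IntermediateField.mem_bot.mp x.2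
    show ι (x : Q̄) = starRingEnd ℂ (ι (x : Q̄))
    rw [← hr, eq_ratCast, map_ratCast, map_ratCast]
  obtain ⟨c, -, hc⟩ := exists_smul_of_res_eq h
  have hc' : ∀ a, ι (c a) = starRingEnd ℂ (ι a) := fun a => (RingHom.congr_fun hc a).symm
  refine ⟨c, AlgEquiv.ext fun a => ι.injective ?_, hc'⟩
  rw [AlgEquiv.mul_apply, hc', hc', Complex.conj_conj, AlgEquiv.one_apply]

/-- A homomorphism to `ℤ/2` trivial on an open subgroup has a Kummer element. -/
theorem exists_kummer_elem (P : Subgroup Γ) (f : Γ → ZMod 2)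
    (hf : ∀ g ∈ P, ∀ h ∈ P, f (g * h) = f g + f h)
    (L : IntermediateField ℚ Q̄) [FiniteDimensional ℚ L] [IsGalois ℚ L]
    (hL : ∀ g ∈ P, g ∈ L.fixingSubgroup → f g = 0) :
    ∃ η : Q̄, η ≠ 0 ∧ ∀ g ∈ P, g η = if f g = 0 then η else -η := by
  by_cases h0 : ∀ g ∈ P, f g = 0
  · exact ⟨1, one_ne_zero, fun g hg => by rw [if_pos (h0 g hg), map_one]⟩
  push Not at h0
  obtain ⟨g₀, hg₀, hne⟩ := h0
  have hf1 : f 1 = 0 := by
    have := hf 1 P.one_mem 1 P.one_mem
    rw [mul_one] at this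
    exact left_eq_add.mp this
  let K₀ : Subgroup Γ :=
    { carrier := {g | g ∈ P ∧ f g = 0}
      one_mem' := ⟨P.one_mem, hf1⟩
      mul_mem' := fun {a b} ha hb => ⟨P.mul_mem ha.1 hb.1, by rw [hf a ha.1 b hb.1, ha.2, hb.2, add_zero]⟩
      inv_mem' := fun {a} ha => ⟨P.inv_mem ha.1, by
        have := hf a ha.1 a⁻¹ (P.inv_mem ha.1)
        rw [mul_inv_cancel, hf1, ha.2, zero_add] at this
        exact this.symm⟩ }
  have := GalCommon.isGalois_Qbar
  have : Normal ℚ L := IsGalois.to_normal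
  have : L.fixingSubgroup.Normal := ⟨fun n hn g => by
    rw [IntermediateField.mem_fixingSubgroup_iff] at hn ⊢
    intro x hx
    rw [AlgEquiv.mul_apply, AlgEquiv.mul_apply, hn _ (TW.mem_of_normal g⁻¹ hx),
      ← AlgEquiv.mul_apply, mul_inv_cancel, AlgEquiv.one_apply]⟩
  set K : Subgroup Γ := K₀ ⊔ L.fixingSubgroup with hK
  have hopen : IsOpen (K : Set Γ) :=
    Subgroup.isOpen_mono (le_sup_right : L.fixingSubgroup ≤ K) L.fixingSubgroup_isOpen
  have hg₀K : g₀ ∉ K := by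
    intro h
    rw [hK, ← SetLike.mem_coe, Subgroup.mul_normal, Set.mem_mul] at h
    obtain ⟨k, hk, l, hl, hkl⟩ := h
    have hlP : l ∈ P := by
      have : l = k⁻¹ * g₀ := by rw [← hkl, inv_mul_cancel_left]
      exact this ▸ P.mul_mem (P.inv_mem hk.1) hg₀
    refine hne ?_
    rw [← hkl, hf k hk.1 l hlP, hk.2, hL l hlP hl, add_zero]
  obtain ⟨θ, hθ, hθne⟩ : ∃ θ ∈ IntermediateField.fixedField K, g₀ θ ≠ θ := by
    by_contra h
    push Not at h
    refine hg₀K ?_
    have := InfiniteGalois.fixingSubgroup_fixedField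
      (⟨K, Subgroup.isClosed_of_isOpen K hopen⟩ : ClosedSubgroup Γ)
    rw [← show (IntermediateField.fixedField K).fixingSubgroup = K from this,
      IntermediateField.mem_fixingSubgroup_iff]
    exact h
  have hfix : ∀ k ∈ P, f k = 0 → k θ = θ := fun k hk hk0 =>
    hθ ⟨k, Subgroup.mem_sup_left (S := K₀) ⟨hk, hk0⟩⟩
  refine ⟨θ - g₀ θ, sub_ne_zero.mpr (Ne.symm hθne), fun g hg => ?_⟩
  have h2 : ∀ x y : ZMod 2, x ≠ 0 → y ≠ 0 → x + y = 0 := by decide
  have hcase : ∀ k ∈ P, f k = 0 → k (g₀ θ) = g₀ θ := fun k hk hk0 => by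
    have hmem : g₀⁻¹ * k * g₀ ∈ P := P.mul_mem (P.mul_mem (P.inv_mem hg₀) hk) hg₀
    have hinv : f g₀⁻¹ + f g₀ = 0 := by
      rw [← hf _ (P.inv_mem hg₀) _ hg₀, inv_mul_cancel, hf1]
    have := hfix _ hmem (by
      rw [hf _ (P.mul_mem (P.inv_mem hg₀) hk) _ hg₀, hf _ (P.inv_mem hg₀) _ hk, hk0, add_zero, hinv])
    calc k (g₀ θ) = g₀ ((g₀⁻¹ * k * g₀) θ) := by
          rw [← AlgEquiv.mul_apply g₀, ← mul_assoc, mul_inv_cancel_left, AlgEquiv.mul_apply]
      _ = g₀ θ := by rw [this]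
  split_ifs with h
  · rw [map_sub, hfix g hg h, hcase g hg h]
  · have hgg : f (g * g₀) = 0 := by rw [hf g hg g₀ hg₀]; exact h2 _ _ h hne
    have e1 : g (g₀ θ) = θ := by
      rw [← AlgEquiv.mul_apply]; exact hfix _ (P.mul_mem hg hg₀) hgg
    have e2 : g θ = g₀ θ := by
      have hgi : f (g₀⁻¹ * g) = 0 := by
        have hinv : f g₀⁻¹ + f g₀ = 0 := by
          rw [← hf _ (P.inv_mem hg₀) _ hg₀, inv_mul_cancel, hf1]
        rw [hf _ (P.inv_mem hg₀) _ hg]
        exact h2 _ _ (fun h' => hne (by rwa [h', zero_add] at hinv)) h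
      have := congrArg g₀ (hfix _ (P.mul_mem (P.inv_mem hg₀) hg) hgi)
      rwa [← AlgEquiv.mul_apply, mul_inv_cancel_left] at this
    rw [map_sub, e1, e2, neg_sub]

/-! ### Valuations -/

theorem zpow_char_inj (A : Place) {a b : ℤ}
    (h : A.1.valuation (A.char : Q̄) ^ a = A.1.valuation (A.char : Q̄) ^ b) : a = b :=
  (zpow_right_strictAnti₀ (zero_lt_iff.mpr A.valuation_char_ne_zero)
    A.valuation_char_lt_one).injective h

theorem exists_val (A : Place) {y : Q̄} (hy : y ≠ 0)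
    (hfix : ∀ σ ∈ A.1.inertiaSubgroupIn ℚ, σ y = y) :
    ∃ k : ℤ, A.1.valuation y = A.1.valuation (A.char : Q̄) ^ k :=
  EllP.exists_valuation_eq_zpow A.prime_char A.liesOver_char hy hfix

/-- If inertia moves a square root of `α`, the valuation of `α` is odd (odd residue
characteristic). -/
theorem odd_of_moved (A : Place) (h2 : A.char ≠ 2) {η : Q̄} (hη : η ≠ 0) {σ : Γ}
    (hσ : σ ∈ A.1.inertiaSubgroupIn ℚ) (hση : σ η = -η) {k : ℤ}
    (hk : A.1.valuation (η ^ 2) = A.1.valuation (A.char : Q̄) ^ k) : Odd k := by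
  rcases Int.even_or_odd k with ⟨j, hj⟩ | hk'
  · exfalso
    set v := A.1.valuation
    have hc0 : (A.char : Q̄) ≠ 0 := Nat.cast_ne_zero.mpr A.prime_char.ne_zero
    set u : Q̄ := η * (A.char : Q̄) ^ (-j) with hu
    have hvu : v u = 1 := by
      refine (pow_eq_one_iff_of_nonneg zero_le two_ne_zero).mp ?_
      rw [← map_pow, hu, mul_pow, map_mul, hk, hj, ← zpow_natCast ((A.char : Q̄) ^ (-j)),
        ← zpow_mul, map_zpow₀, ← zpow_add₀ A.valuation_char_ne_zero]
      convert zpow_zero (v (A.char : Q̄)) using 2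
      push_cast; ring
    have hσu : σ u = -u := by
      rw [hu, map_mul, map_zpow₀, map_natCast, hση, neg_mul]
    have hmem : u ∈ A.1 := (A.1.valuation_le_one_iff u).mp hvu.le
    have h := (GalCommon.mem_inertiaSubgroupIn_iff.mp hσ).2 u hmem
    rw [hσu, ValuationSubring.mem_nonunits_iff] at h
    rw [show -u - u = -((2 : ℕ) : Q̄) * u by push_cast; ring, map_mul, Valuation.map_neg, hvu,
      mul_one] at h
    have h' : ((2 : ℕ) : Q̄) ∈ A.1.nonunits := by
      rw [ValuationSubring.mem_nonunits_iff]; exact h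
    exact h2 ((Nat.prime_dvd_prime_iff_eq A.prime_char Nat.prime_two).mp
      ((GalCommon.natCast_mem_nonunits_iff A.prime_char A.liesOver_char 2).mp h'))
  · exact hk'

/-! ### Constructions of ideles -/

/-- An idele with trivial infinite components. -/
def finIdele (f : Place → Q̄ˣ) : PreIdele := ⟨f, 1⟩

@[simp] theorem finIdele_fin (f : Place → Q̄ˣ) (A : Place) : (finIdele f).fin A = f A := rfl
@[simp] theorem finIdele_inf (f : Place → Q̄ˣ) : (finIdele f).inf = 1 := rfl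

theorem finIdele_mem {K : IntermediateField ℚ Q̄} {f : Place → Q̄ˣ}
    (h : ∀ σ ∈ K.fixingSubgroup, ∀ A : Place, (f (σ • A) : Q̄) = σ (f A : Q̄)) (S : Finset ℕ)
    (hS : ∀ A : Place, ¬ A.Over S → f A ∈ A.1.unitGroup) : finIdele f ∈ ideles K := by
  refine ⟨fun σ hσ => PreIdele.ext (funext fun A => Units.ext ?_) (funext fun ι => rfl),
    fun ι => by simp, S, hS⟩
  rw [PreIdele.coe_fin_smul, finIdele_fin, finIdele_fin, ← h σ hσ, smul_inv_smul]

open Classical in
/-- The components `σ u` on the `K`-orbit of `B`, and `1` elsewhere. -/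
def orb (K : IntermediateField ℚ Q̄) (B : Place) (u : Q̄ˣ) (A : Place) : Q̄ˣ :=
  if h : ∃ σ ∈ K.fixingSubgroup, σ • B = A then Units.map (h.choose : Q̄ →* Q̄) u else 1

theorem orb_smul {K : IntermediateField ℚ Q̄} {B : Place} {u : Q̄ˣ}
    (hu : ∀ τ ∈ K.fixingSubgroup, τ • B = B → τ (u : Q̄) = u) {σ : Γ}
    (hσ : σ ∈ K.fixingSubgroup) : (orb K B u (σ • B) : Q̄) = σ (u : Q̄) := by
  have h : ∃ τ ∈ K.fixingSubgroup, τ • B = σ • B := ⟨σ, hσ, rfl⟩
  rw [orb, dif_pos h]
  show h.choose (u : Q̄) = σ u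
  obtain ⟨hc, he⟩ := h.choose_spec
  set τ := h.choose
  have := hu (σ⁻¹ * τ) (mul_mem (inv_mem hσ) hc) (by rw [mul_smul, he, inv_smul_smul])
  have h2 := congrArg σ this
  rwa [← AlgEquiv.mul_apply, mul_inv_cancel_left] at h2

theorem orb_eq_one {K : IntermediateField ℚ Q̄} {B : Place} {u : Q̄ˣ} {A : Place}
    (h : ¬ ∃ σ ∈ K.fixingSubgroup, σ • B = A) : orb K B u A = 1 := dif_neg h

/-- Equivariance of the orbit components. -/
theorem orb_equivariant {K : IntermediateField ℚ Q̄} {B : Place} {u : Q̄ˣ}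
    (hu : ∀ τ ∈ K.fixingSubgroup, τ • B = B → τ (u : Q̄) = u) {σ : Γ}
    (hσ : σ ∈ K.fixingSubgroup) (A : Place) :
    (orb K B u (σ • A) : Q̄) = σ (orb K B u A : Q̄) := by
  by_cases h : ∃ τ ∈ K.fixingSubgroup, τ • B = A
  · obtain ⟨τ, hτ, rfl⟩ := h
    rw [← mul_smul, orb_smul hu (mul_mem hσ hτ), orb_smul hu hτ, AlgEquiv.mul_apply]
  · have h' : ¬ ∃ τ ∈ K.fixingSubgroup, τ • B = σ • A := fun ⟨τ, hτ, he⟩ =>
      h ⟨σ⁻¹ * τ, mul_mem (inv_mem hσ) hτ, by rw [mul_smul, he, inv_smul_smul]⟩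
    rw [orb_eq_one h, orb_eq_one h', Units.val_one, map_one]

/-- An idele trivial above `T` and infinity whose valuations are even is a square times units. -/
theorem mem_pow_sup_unit {T : Finset ℕ} {K : IntermediateField ℚ Q̄} {φ : PreIdele}
    (hφ : φ ∈ awayIdeles T K)
    (h : ∀ A : Place, ¬ A.Over T →
      ∃ j : ℤ, A.1.valuation (φ.fin A : Q̄) = A.1.valuation (A.char : Q̄) ^ (2 * j)) :
    φ ∈ powIdeles 2 K ⊔ unitIdeles T K := by
  classical
  choose j hj using h
  let f : Place → Q̄ˣ := fun A => if hA : A.Over T then 1 else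
    Units.mk0 (A.char : Q̄) (Nat.cast_ne_zero.mpr A.prime_char.ne_zero) ^ j A hA
  obtain ⟨S, hS⟩ := hφ.1.2.2
  have hjσ : ∀ σ ∈ K.fixingSubgroup, ∀ (A : Place) (hA : ¬ A.Over T) (hA' : ¬ (σ • A).Over T),
      j (σ • A) hA' = j A hA := by
    intro σ hσ A hA hA'
    have h1 : A.1.valuation (φ.fin A : Q̄) = A.1.valuation ((A.char : Q̄) ^ (2 * j A hA)) := by
      rw [map_zpow₀]; exact hj A hA
    have h2 := (valuation_smul_eq_iff σ A).mpr h1
    have e : σ ((A.char : Q̄) ^ (2 * j A hA)) = ((σ • A).char : Q̄) ^ (2 * j A hA) := by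
      rw [map_zpow₀, map_natCast σ, Place.char_smul]
    rw [← coe_smul_fin hφ.1 hσ, hj _ hA', e, map_zpow₀] at h2
    have := zpow_char_inj _ h2
    omega
  have hmem : finIdele f ∈ ideles K := by
    refine finIdele_mem (fun σ hσ A => ?_) S fun A hA => ?_
    · by_cases hA : A.Over T
      · simp only [f, dif_pos hA, dif_pos (hA.smul σ), Units.val_one, map_one]
      · have hA' : ¬ (σ • A).Over T := fun h => hA (Place.over_smul_iff.mp h)
        simp only [f, dif_neg hA, dif_neg hA', hjσ σ hσ A hA hA', Units.val_zpow_eq_zpow_val,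
          Units.val_mk0, Place.char_smul, map_zpow₀, map_natCast]
    · by_cases hAT : A.Over T
      · simp only [f, dif_pos hAT]; exact one_mem _
      · have h1 := mem_unitGroup_iff.mp (hS A hA)
        rw [hj A hAT] at h1
        have h0 : 2 * j A hAT = 0 := zpow_char_inj A (by rw [h1, zpow_zero])
        simp only [f, dif_neg hAT, show j A hAT = 0 by omega, zpow_zero]
        exact one_mem _
  have h1 : finIdele f ^ 2 ∈ powIdeles 2 K := ⟨_, hmem, rfl⟩
  rw [show φ = finIdele f ^ 2 * ((finIdele f ^ 2)⁻¹ * φ) by rw [mul_inv_cancel_left]]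
  refine Subgroup.mul_mem_sup h1 ⟨⟨mul_mem (inv_mem (pow_mem hmem 2)) hφ.1, fun A hA => ?_,
    funext fun ι => ?_⟩, fun A => ?_⟩
  · show finHom A ((finIdele f ^ 2)⁻¹ * φ) = 1
    rw [map_mul, map_inv, map_pow, show finHom A φ = 1 from hφ.2.1 A hA]
    simp [finHom, f, dif_pos hA]
  · show infHom ι ((finIdele f ^ 2)⁻¹ * φ) = 1
    rw [map_mul, map_inv, map_pow, show infHom ι φ = 1 from congrFun hφ.2.2 ι]
    simp [infHom]
  · show finHom A ((finIdele f ^ 2)⁻¹ * φ) ∈ _
    rw [map_mul, map_inv, map_pow]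
    by_cases hA : A.Over T
    · rw [show finHom A φ = 1 from hφ.2.1 A hA]
      simp [finHom, f, dif_pos hA]
    · rw [mem_unitGroup_iff]
      show A.1.valuation (((f A ^ 2)⁻¹ * φ.fin A : Q̄ˣ) : Q̄) = 1
      simp only [f, dif_neg hA, Units.val_mul, Units.val_inv_eq_inv_val, Units.val_pow_eq_pow_val,
        Units.val_zpow_eq_zpow_val, Units.val_mk0, map_mul, map_inv₀, map_pow, map_zpow₀, hj A hA]
      rw [← zpow_natCast (A.1.valuation (A.char : Q̄) ^ j A hA), ← zpow_mul, mul_comm (j A hA),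
        Nat.cast_ofNat, inv_mul_cancel₀ (zpow_ne_zero _ A.valuation_char_ne_zero)]

end FLTAgent.Mod2.Select
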