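import Fermat.Agent.Mod2.Select.Symbol

/-!
# The character of a cocycle kills the ideles of `ℚ`

At a prime outside `T` the places of the cubic field are given by the orbits of Frobenius on the
nonzero vectors, and the values of the cocycle coordinate on them add up to zero.

Main declarations: `placeIdele_bot_mem`, `rat_mem`.
-/

set_option autoImplicit false
set_option synthInstance.maxHeartbeats 200000

noncomputable section

open scoped Pointwise

namespace FLTAgent.Mod2.Select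

open TW

local notation "Q̄" => AlgebraicClosure ℚ

theorem mem_fix_bot (σ : Gal2) : σ ∈ (⊥ : IntermediateField ℚ Q̄).fixingSubgroup := by
  rw [IntermediateField.mem_fixingSubgroup_iff]
  intro x hx
  obtain ⟨r, rfl⟩ := IntermediateField.mem_bot.mp hx
  exact σ.commutes r

theorem smul_of_decomp {A : Place} {d : Gal2} (hd : d ∈ A.1.decompositionSubgroup ℚ) :
    d • A = A := Subtype.ext (MulAction.mem_stabilizer_iff.mp hd)

theorem decomp_of_smul {A : Place} {d : Gal2} (hd : d • A = A) :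
    d ∈ A.1.decompositionSubgroup ℚ := MulAction.mem_stabilizer_iff.mpr (congrArg Subtype.val hd)

variable {D : Setup} {T : Finset ℕ} {z : Gal2 → Fin 2 → ZMod 2}
  {lam : ideles (Fld D) →* (AlgebraicClosure ℚ)ˣ}

/-- The preideles killed by the character. -/
def kerSub (lam : ideles (Fld D) →* (AlgebraicClosure ℚ)ˣ) : Subgroup PreIdele :=
  lam.ker.map (ideles (Fld D)).subtype

theorem mem_kerSub {φ : PreIdele} :
    φ ∈ kerSub lam ↔ ∃ h : φ ∈ ideles (Fld D), lam ⟨φ, h⟩ = 1 := by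
  constructor
  · rintro ⟨ψ, hψ, rfl⟩
    exact ⟨ψ.2, MonoidHom.mem_ker.mp hψ⟩
  · rintro ⟨h, h1⟩
    exact ⟨⟨φ, h⟩, MonoidHom.mem_ker.mpr h1, rfl⟩

theorem classKer_le_kerSub (hs : IsSymbol D T (crd z) lam) : classKer T (Fld D) ≤ kerSub lam :=
  fun _ hφ => mem_kerSub.mpr ⟨classKer_le_ideles' hφ, hs.ker _ hφ⟩

theorem pow_le_kerSub (hs : IsSymbol D T (crd z) lam) : powIdeles 2 (Fld D) ≤ kerSub lam := by
  rintro _ ⟨φ, hφ, rfl⟩
  refine mem_kerSub.mpr ⟨pow_mem hφ 2, ?_⟩
  exact (map_pow lam ⟨φ, hφ⟩ 2).trans (hs.sq _)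

/-- A family of places representing the places of the cubic field above `q`. -/
theorem placeIdele_bot_eq {n : ℕ} {q : ℕ} (hq : q.Prime) {A : Place} (hA : A.1.LiesOverPrime q)
    (g : Fin n → Gal2) (hcov : ∀ γ : Gal2, ∃ i, ∃ σ ∈ Hsub D, σ • g i • A = γ • A)
    (huniq : ∀ i j, (∃ σ ∈ Hsub D, σ • g i • A = g j • A) → i = j) :
    placeIdele ⊥ q hq.ne_zero A = ∏ i, placeIdele (Fld D) q hq.ne_zero (g i • A) := by
  classical
  refine PreIdele.ext (funext fun B => ?_) (funext fun ι => ?_)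
  · show _ = finHom B (∏ i, placeIdele (Fld D) q hq.ne_zero (g i • A))
    rw [map_prod]
    by_cases hB : ∃ γ : Gal2, γ • A = B
    · obtain ⟨γ, rfl⟩ := hB
      obtain ⟨i, σ, hσ, hi⟩ := hcov γ
      rw [Finset.prod_eq_single i]
      · show _ = (placeIdele _ q hq.ne_zero _).fin _
        simp only [placeIdele]
        rw [if_pos ⟨γ, mem_fix_bot γ, rfl⟩, if_pos ⟨σ, by rwa [fix_Fld], hi⟩]
      · intro j _ hji
        refine placeIdele_fin_of_not q hq.ne_zero ?_
        rintro ⟨τ, hτ, hj⟩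
        rw [fix_Fld] at hτ
        refine hji (huniq j i ⟨σ⁻¹ * τ, mul_mem (inv_mem hσ) hτ, ?_⟩)
        rw [mul_smul, hj, ← hi, inv_smul_smul]
      · exact fun h => absurd (Finset.mem_univ _) h
    · rw [placeIdele_fin_of_not q hq.ne_zero fun ⟨γ, _, h⟩ => hB ⟨γ, h⟩]
      refine (Finset.prod_eq_one fun i _ => placeIdele_fin_of_not q hq.ne_zero ?_).symm
      rintro ⟨τ, -, h⟩
      exact hB ⟨τ * g i, by rw [mul_smul, h]⟩
  · show _ = infHom ι (∏ i, placeIdele (Fld D) q hq.ne_zero (g i • A))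
    rw [map_prod]
    exact (Finset.prod_eq_one fun i _ => rfl).symm

theorem frob_type : ∀ M ∈ gl2List, M = 1 ∨ M = Cmat ∨ M = Cmat * Cmat ∨
    ∃ G ∈ gl2List, ∃ G' ∈ gl2List, G * G' = 1 ∧ G * M * G' = Umat := by decide

theorem cyc_cover : ∀ M ∈ [Cmat, Cmat * Cmat], ∀ G ∈ gl2List,
    G 1 0 = 0 ∨ (G * M) 1 0 = 0 ∨ (G * (M * M)) 1 0 = 0 := by decide

theorem cyc_props : ∀ M ∈ [Cmat, Cmat * Cmat], M 1 0 ≠ 0 ∧ (M * M) 1 0 ≠ 0 ∧
    M * (M * M) = 1 ∧ ∀ v : Fin 2 → ZMod 2, v + (M.mulVec v + M.mulVec (M.mulVec v)) = 0 := by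
  decide

theorem invol_cover : ∀ G ∈ gl2List,
    G 1 0 = 0 ∨ (G * (Cmat * Cmat)) 1 0 = 0 ∨ (G * Umat * (Cmat * Cmat)) 1 0 = 0 := by decide

theorem invol_moved : (Cmat * Umat * (Cmat * Cmat)) 1 0 ≠ 0 := by decide

theorem invol_sum : ∀ v : Fin 2 → ZMod 2,
    v 1 + Cmat.mulVec (v + Umat.mulVec v) 1 = 0 := by decide

theorem split_cover : ∀ G ∈ gl2List,
    G 1 0 = 0 ∨ (G * (Cmat * Cmat)) 1 0 = 0 ∨ (G * Cmat) 1 0 = 0 := by decide

theorem split_sum : ∀ v : Fin 2 → ZMod 2,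
    v 1 + (Cmat.mulVec v 1 + (Cmat * Cmat).mulVec v 1) = 0 := by decide

theorem conj_upper : ∀ G ∈ gl2List, ∀ G' ∈ gl2List, G * G' = 1 → G 1 0 = 0 →
    (G * Umat * G') 1 0 = 0 := by decide

theorem rho_inv_Cmat {g : Gal2} (hg : D.rho g = Cmat) : D.rho g⁻¹ = Cmat * Cmat := by
  have h : ∀ M ∈ gl2List, Cmat * M = 1 → M = Cmat * Cmat := by decide
  exact h _ (rho_mem D _) (by rw [← hg, ← map_mul, mul_inv_cancel, map_one])

theorem symbol_placeIdele (hT : GoodSet D T) (hs : IsSymbol D T (crd z) lam)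
    {q : ℕ} (hq : q.Prime) (hqT : q ∉ T) {A : Place} (hA : A.1.LiesOverPrime q) {φ : Gal2}
    (hφ : A.1.IsFrobeniusAt φ q) {f : ℕ} (hf : 0 < f) (hmem : φ ^ f ∈ Hsub D)
    (hmin : ∀ k : ℕ, 0 < k → k < f → φ ^ k ∉ Hsub D) :
    lam ⟨_, placeIdele_mem_ideles (F := Fld D) hq hA⟩ = sgn (crd z (φ ^ f)) :=
  have := hT
  hs.frob q hq A hqT hA φ hφ f hf hmem hmin _

theorem sgn_sum {ι : Type} (s : Finset ι) (e : ι → ZMod 2) :
    ∏ i ∈ s, sgn (e i) = sgn (∑ i ∈ s, e i) := by
  classical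
  induction s using Finset.induction_on with
  | empty => simp
  | insert i s hi ih => rw [Finset.prod_insert hi, Finset.sum_insert hi, ih, sgn_add]

/-- The idele of a rational prime is killed if the values at the places above it add up to zero. -/
theorem mem_of_family {n : ℕ} {q : ℕ} (hq : q.Prime) {A : Place} (hA : A.1.LiesOverPrime q)
    (g : Fin n → Gal2) (e : Fin n → ZMod 2)
    (hcov : ∀ γ : Gal2, ∃ i, ∃ σ ∈ Hsub D, σ • g i • A = γ • A)
    (huniq : ∀ i j, (∃ σ ∈ Hsub D, σ • g i • A = g j • A) → i = j)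
    (hval : ∀ i, lam ⟨_, placeIdele_mem_ideles (F := Fld D) hq
      (A := g i • A) (GalCommon.liesOverPrime_smul hA)⟩ = sgn (e i))
    (hsum : ∑ i, e i = 0) : placeIdele ⊥ q hq.ne_zero A ∈ kerSub lam := by
  rw [placeIdele_bot_eq hq hA g hcov huniq]
  refine mem_kerSub.mpr ⟨prod_mem fun i _ => placeIdele_mem_ideles hq
    (GalCommon.liesOverPrime_smul hA), ?_⟩
  have hprod : (⟨_, prod_mem fun i _ => placeIdele_mem_ideles hq
      (A := g i • A) (GalCommon.liesOverPrime_smul hA)⟩ : ideles (Fld D)) =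
      ∏ i, (⟨_, placeIdele_mem_ideles hq
        (A := g i • A) (GalCommon.liesOverPrime_smul hA)⟩ : ideles (Fld D)) :=
    Subtype.ext (by rw [SubmonoidClass.coe_finsetProd])
  rw [hprod, map_prod]
  simp only [hval]
  rw [sgn_sum, hsum, sgn_zero]

theorem rho_conj_one (g : Gal2) {φ : Gal2} (h : D.rho φ = 1) : D.rho (g * φ * g⁻¹) = 1 := by
  rw [map_mul, map_mul, h, mul_one, ← map_mul, mul_inv_cancel, map_one]

theorem split_index : ∀ i j : Fin 3,
    (![1, Cmat, Cmat * Cmat] j * ![1, Cmat * Cmat, Cmat] i) 1 0 = 0 → i = j := by decide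

/-- A prime with three places of degree one. -/
theorem split_case (hT : GoodSet D T) (hz : D.IsCocycle z) (hs : IsSymbol D T (crd z) lam)
    {q : ℕ} (hq : q.Prime) (hqT : q ∉ T) {A : Place} (hA : A.1.LiesOverPrime q) {φ : Gal2}
    (hφ : A.1.IsFrobeniusAt φ q) (h1 : D.rho φ = 1) :
    placeIdele ⊥ q hq.ne_zero A ∈ kerSub lam := by
  obtain ⟨gC, hgC⟩ := exists_rho D Cmat (by decide)
  have hC2i : D.rho (gC * gC)⁻¹ = Cmat := by
    rw [mul_inv_rev, map_mul, rho_inv_Cmat hgC]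
    decide
  have hA0 : ¬ A.Over T := fun h => hqT (A.char_eq hq hA ▸ A.over_iff.mp h)
  have hval : ∀ g : Gal2, lam ⟨_, placeIdele_mem_ideles (F := Fld D) hq
      (A := g • A) (GalCommon.liesOverPrime_smul hA)⟩ = sgn (crd z (g * φ * g⁻¹)) := fun g => by
    have := symbol_placeIdele hT hs hq hqT (A := g • A) (GalCommon.liesOverPrime_smul hA)
      (GalCommon.isFrobeniusAt_conj hφ g) one_pos
      (by rw [pow_one]; exact mem_Hsub_of_rho_one D (rho_conj_one g h1)) (fun k hk hk' => by omega)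
    rwa [pow_one] at this
  refine mem_of_family hq hA ![1, gC, gC * gC]
    (fun i => crd z (![1, gC, gC * gC] i * φ * (![1, gC, gC * gC] i)⁻¹))
    (fun γ => ?_) (fun i j hij => ?_) (fun i => hval _) ?_
  · have hγ : ∀ g : Gal2, γ * g⁻¹ ∈ Hsub D → ∃ σ ∈ Hsub D, σ • g • A = γ • A := fun g hg =>
      ⟨_, hg, by rw [← mul_smul, inv_mul_cancel_right]⟩
    rcases split_cover _ (rho_mem D γ) with h | h | h
    · exact ⟨0, hγ 1 (by rwa [inv_one, mul_one, mem_Hsub])⟩
    · exact ⟨1, hγ gC (by rwa [mem_Hsub, map_mul, rho_inv_Cmat hgC])⟩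
    · exact ⟨2, hγ (gC * gC) (by rwa [mem_Hsub, map_mul, hC2i])⟩
  · obtain ⟨σ, hσ, he⟩ := hij
    set gi := ![1, gC, gC * gC] i with hgi
    set gj := ![1, gC, gC * gC] j with hgj
    have hd : (gj⁻¹ * σ * gi) • A = A := by rw [mul_smul, mul_smul, he, inv_smul_smul]
    obtain ⟨k, hk⟩ := exists_pow_of_smul_eq hq hA hφ (SplitFld D)
      (fun ι hι => by rw [fix_SplitFld]; exact MonoidHom.mem_ker.mpr (inertia_rho hT hA0 hι)) hd
    rw [fix_SplitFld, MonoidHom.mem_ker] at hk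
    have hpow : D.rho ((φ ^ k)⁻¹) = 1 := by
      have := congrArg D.rho (inv_mul_cancel (φ ^ k))
      rwa [map_mul, map_pow, h1, one_pow, mul_one, map_one] at this
    rw [map_mul, hpow, one_mul] at hk
    have hrho : D.rho σ = D.rho gj * D.rho gi⁻¹ := by
      calc D.rho σ = D.rho (gj * (gj⁻¹ * σ * gi) * gi⁻¹) := by congr 1; group
        _ = D.rho gj * D.rho gi⁻¹ := by rw [map_mul, map_mul, hk, mul_one]
    have hj : D.rho gj = ![1, Cmat, Cmat * Cmat] j := by
      rw [hgj]; fin_cases j <;> simp [hgC]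
    have hi : D.rho gi⁻¹ = ![1, Cmat * Cmat, Cmat] i := by
      rw [hgi]; fin_cases i
      · simp
      · exact rho_inv_Cmat hgC
      · exact hC2i
    rw [mem_Hsub, hrho, hi, hj] at hσ
    exact split_index i j hσ
  · simp only [Fin.sum_univ_three]
    show crd z (1 * φ * 1⁻¹) + crd z (gC * φ * gC⁻¹) + crd z (gC * gC * φ * (gC * gC)⁻¹) = 0
    rw [one_mul, inv_one, mul_one, crd, crd, crd, cocycle_conj_ker hz gC h1,
      cocycle_conj_ker hz (gC * gC) h1, map_mul, hgC, add_assoc]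
    exact split_sum _

/-- An inert prime. -/
theorem cyc_case (hT : GoodSet D T) (hz : D.IsCocycle z) (hs : IsSymbol D T (crd z) lam)
    {q : ℕ} (hq : q.Prime) (hqT : q ∉ T) {A : Place} (hA : A.1.LiesOverPrime q) {φ : Gal2}
    (hφ : A.1.IsFrobeniusAt φ q) (hM : D.rho φ ∈ [Cmat, Cmat * Cmat]) :
    placeIdele ⊥ q hq.ne_zero A ∈ kerSub lam := by
  obtain ⟨h1, h2, h3, h4⟩ := cyc_props _ hM
  have hA' : ∀ n : ℕ, φ ^ n • A = A := fun n => smul_eq_self_of_frobenius hφ n
  refine mem_of_family hq hA (fun _ : Fin 1 => 1) (fun _ => crd z (φ ^ 3)) (fun γ => ⟨0, ?_⟩)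
    (fun i j _ => Subsingleton.elim i j) (fun _ => ?_) ?_
  · rcases cyc_cover _ hM _ (rho_mem D γ) with h | h | h
    · exact ⟨γ, h, by rw [one_smul]⟩
    · refine ⟨γ * φ, by rwa [mem_Hsub, map_mul], ?_⟩
      rw [one_smul, mul_smul, ← pow_one φ, hA']
    · refine ⟨γ * φ ^ 2, by rwa [mem_Hsub, map_mul, pow_two, map_mul], ?_⟩
      rw [one_smul, mul_smul, hA']
  · refine symbol_placeIdele hT hs hq hqT (A := (1 : Gal2) • A)
      (GalCommon.liesOverPrime_smul hA) (f := 3) (by rw [one_smul]; exact hφ) (by norm_num)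
      (mem_Hsub_of_rho_one D (by rw [map_pow, pow_succ', pow_two]; exact h3))
      (fun k hk hk' => ?_)
    interval_cases k
    · rw [pow_one]; exact h1
    · rw [mem_Hsub, map_pow, pow_two]; exact h2
  · simp only [Fin.sum_univ_one]
    show crd z (φ ^ 3) = 0
    rw [crd, show φ ^ 3 = φ * (φ * φ) from by rw [pow_succ', pow_two], hz.mul, hz.mul,
      Matrix.mulVec_add]
    exact congrFun (h4 _) 1

/-- A prime with two places, seen from the one of degree one. -/
theorem invol_case (hT : GoodSet D T) (hz : D.IsCocycle z) (hs : IsSymbol D T (crd z) lam)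
    {q : ℕ} (hq : q.Prime) (hqT : q ∉ T) {B : Place} (hB : B.1.LiesOverPrime q) {ψ : Gal2}
    (hψF : B.1.IsFrobeniusAt ψ q) (hψ : D.rho ψ = Umat) :
    placeIdele ⊥ q hq.ne_zero B ∈ kerSub lam := by
  obtain ⟨gC, hgC⟩ := exists_rho D Cmat (by decide)
  have hψB : ψ • B = B := smul_of_decomp hψF.mem_decompositionSubgroup
  have hne : ∀ σ ∈ Hsub D, σ • B ≠ gC • B := by
    intro σ hσ he
    have h3 := GalCommon.isFrobeniusAt_conj hψF σ
    have h4 := GalCommon.isFrobeniusAt_conj hψF gC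
    rw [← Place.coe_smul, he, Place.coe_smul] at h3
    have h5 := inertia_rho hT (A := gC • B) (fun h => hqT
      (B.char_eq hq hB ▸ B.over_iff.mp (Place.over_smul_iff.mp h)))
      (GalCommon.inv_mul_mem_inertia h3 h4)
    have h6 : D.rho (gC * ψ * gC⁻¹) = D.rho (σ * ψ * σ⁻¹) := by
      calc D.rho (gC * ψ * gC⁻¹)
          = D.rho (σ * ψ * σ⁻¹ * ((σ * ψ * σ⁻¹)⁻¹ * (gC * ψ * gC⁻¹))) := by
            rw [mul_inv_cancel_left]
        _ = D.rho (σ * ψ * σ⁻¹) := by rw [map_mul, h5, mul_one]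
    refine invol_moved ?_
    rw [map_mul, map_mul, hgC, rho_inv_Cmat hgC, hψ] at h6
    rw [h6, map_mul, map_mul, hψ]
    exact conj_upper _ (rho_mem D σ) _ (rho_mem D σ⁻¹)
      (by rw [← map_mul, mul_inv_cancel, map_one]) hσ
  refine mem_of_family hq hB ![1, gC] ![crd z ψ, crd z ((gC * ψ * gC⁻¹) ^ 2)]
    (fun γ => ?_) (fun i j hij => ?_) (Fin.forall_fin_two.mpr ⟨?_, ?_⟩) ?_
  · rcases invol_cover _ (rho_mem D γ) with h | h | h
    · exact ⟨0, γ, h, congrArg (γ • ·) (one_smul Gal2 B)⟩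
    · refine ⟨1, γ * gC⁻¹, by rwa [mem_Hsub, map_mul, rho_inv_Cmat hgC], ?_⟩
      show (γ * gC⁻¹) • gC • B = γ • B
      rw [← mul_smul, inv_mul_cancel_right]
    · refine ⟨1, γ * ψ * gC⁻¹, by rwa [mem_Hsub, map_mul, map_mul, rho_inv_Cmat hgC, hψ], ?_⟩
      show (γ * ψ * gC⁻¹) • gC • B = γ • B
      rw [← mul_smul, inv_mul_cancel_right, mul_smul, hψB]
  · obtain ⟨σ, hσ, he⟩ := hij
    fin_cases i <;> fin_cases j
    · rfl
    · exact absurd (show σ • B = gC • B by simpa using he) (hne σ hσ)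
    · refine absurd ?_ (hne σ⁻¹ (inv_mem hσ))
      rw [inv_smul_eq_iff]
      simpa using he.symm
    · rfl
  · refine (symbol_placeIdele hT hs hq hqT (GalCommon.liesOverPrime_smul hB)
      (A := (1 : Gal2) • B) (φ := ψ) (by rw [one_smul]; exact hψF) one_pos
      (by rw [pow_one]; exact mem_Hsub_of_rho_U D hψ) (fun k hk hk' => by omega)).trans ?_
    rw [pow_one]
    rfl
  · refine symbol_placeIdele hT hs hq hqT (A := gC • B) (GalCommon.liesOverPrime_smul hB)
      (GalCommon.isFrobeniusAt_conj hψF gC) two_pos (mem_Hsub_of_rho_one D ?_) (fun k hk hk' => ?_)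
    · rw [map_pow, map_mul, map_mul, hgC, rho_inv_Cmat hgC, hψ]; decide
    · rw [show k = 1 by omega, pow_one, mem_Hsub, map_mul, map_mul, hgC, rho_inv_Cmat hgC, hψ]
      exact invol_moved
  · simp only [Fin.sum_univ_two]
    show crd z ψ + crd z ((gC * ψ * gC⁻¹) ^ 2) = 0
    have e : (gC * ψ * gC⁻¹) ^ 2 = gC * (ψ * ψ) * gC⁻¹ := by rw [pow_two]; group
    rw [crd, crd, e, cocycle_conj_ker hz gC (by rw [map_mul, hψ]; decide), hz.mul, hgC, hψ]
    exact invol_sum _

theorem placeIdele_bot_smul {q : ℕ} (hq : q ≠ 0) (g : Gal2) (A : Place) :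
    placeIdele ⊥ q hq (g • A) = placeIdele ⊥ q hq A := by
  classical
  refine PreIdele.ext (funext fun B => ?_) rfl
  by_cases h : ∃ γ : Gal2, γ • A = B
  · obtain ⟨γ, rfl⟩ := h
    simp only [placeIdele]
    rw [if_pos ⟨γ * g⁻¹, mem_fix_bot _, by rw [← mul_smul, inv_mul_cancel_right]⟩,
      if_pos ⟨γ, mem_fix_bot γ, rfl⟩]
  · rw [placeIdele_fin_of_not q hq fun ⟨γ, _, he⟩ => h ⟨γ * g, by rw [mul_smul, he]⟩,
      placeIdele_fin_of_not q hq fun ⟨γ, _, he⟩ => h ⟨γ, he⟩]

/-- The character kills the idele of a rational prime outside `T`. -/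
theorem placeIdele_bot_mem (hT : GoodSet D T) (hz : D.IsCocycle z)
    (hs : IsSymbol D T (crd z) lam) {q : ℕ} (hq : q.Prime) (hqT : q ∉ T) (A : Place)
    (hA : A.1.LiesOverPrime q) : placeIdele ⊥ q hq.ne_zero A ∈ kerSub lam := by
  obtain ⟨φ, hφ⟩ := GalCommon.exists_isFrobeniusAt hq hA
  rcases frob_type _ (rho_mem D φ) with h1 | hC | hC | ⟨G, hG, G', hG', hGG, hconj⟩
  · exact split_case hT hz hs hq hqT hA hφ h1
  · exact cyc_case hT hz hs hq hqT hA hφ (by rw [hC]; simp)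
  · exact cyc_case hT hz hs hq hqT hA hφ (by rw [hC]; simp)
  · obtain ⟨g0, hg0⟩ := exists_rho D G (fun h => by
      have := congrArg Matrix.det hGG
      rw [Matrix.det_mul, h, zero_mul, Matrix.det_one] at this
      exact zero_ne_one this)
    have hg0' : D.rho g0⁻¹ = G' := by
      have h2 : G' * G = 1 := mul_eq_one_comm.mp hGG
      calc D.rho g0⁻¹ = (G' * G) * D.rho g0⁻¹ := by rw [h2, one_mul]
        _ = G' := by rw [mul_assoc, ← hg0, ← map_mul, mul_inv_cancel, map_one, mul_one]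
    rw [← placeIdele_bot_smul hq.ne_zero g0 A]
    exact invol_case hT hz hs hq hqT (GalCommon.liesOverPrime_smul hA)
      (GalCommon.isFrobeniusAt_conj hφ g0) (by rw [map_mul, map_mul, hg0, hg0', hconj])

/-- The character kills all ideles of `ℚ`. -/
theorem rat_mem (hT : GoodSet D T) (hz : D.IsCocycle z) (hs : IsSymbol D T (crd z) lam)
    {φ : PreIdele} (hφ : φ ∈ ideles ⊥) : φ ∈ kerSub lam := by
  classical
  have hμ : ContainsMuP 2 (⊥ : IntermediateField ℚ Q̄) := fun ζ hζ => by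
    rcases sq_eq_one_iff.mp hζ with rfl | rfl
    · exact one_mem _
    · exact neg_mem (one_mem _)
  obtain ⟨x, hx, _, hy, rfl⟩ := Subgroup.mem_sup.mp
    (ideles_le_principal_sup' (p := 2) hT.prime ⟨2, hT.two_mem⟩ hμ hφ)
  obtain ⟨a, ha, w, hw, rfl⟩ := Subgroup.mem_sup.mp hy
  refine mul_mem (classKer_le_kerSub hs (Subgroup.mem_sup_left (principal_mono bot_le hx)))
    (mul_mem ?_ (pow_le_kerSub hs (Subgroup.map_mono (ideles_le_of_le bot_le) hw)))
  suffices h : ∀ (S : Finset ℕ) (a : PreIdele), a ∈ awayIdeles T ⊥ →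
      (∀ A : Place, ¬ A.Over S → a.fin A ∈ A.1.unitGroup) → a ∈ kerSub lam by
    obtain ⟨S, hS⟩ := ha.1.2.2
    exact h S a ha hS
  intro S
  induction S using Finset.induction_on with
  | empty =>
    intro a ha hS
    exact classKer_le_kerSub hs (Subgroup.mem_sup_right (unitIdeles_mono bot_le
      ⟨ha, fun A => hS A fun ⟨q, hq, _⟩ => absurd hq (Finset.notMem_empty q)⟩))
  | insert q S _ ih =>
    intro a ha hS
    by_cases hq : q.Prime ∧ q ∉ T
    · obtain ⟨A, hA⟩ := GalCommon.exists_liesOverPrime hq.1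
      let A' : Place := ⟨A, q, hq.1, hA⟩
      have hA' : A'.1.LiesOverPrime q := hA
      obtain ⟨k, hk⟩ := exists_val A' (a.fin A').ne_zero fun σ hσ =>
        fin_fixed ha.1 A' (mem_fix_bot σ)
          (smul_of_decomp (GalCommon.mem_inertiaSubgroupIn_iff.mp hσ).1)
      rw [A'.char_eq hq.1 hA] at hk
      have hP : placeIdele ⊥ q hq.1.ne_zero A' ∈ awayIdeles T ⊥ :=
        placeIdele_mem_awayIdeles hq.1 hq.2 hA'
      have hb : a * (placeIdele ⊥ q hq.1.ne_zero A' ^ k)⁻¹ ∈ kerSub lam := by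
        refine ih _ (mul_mem ha (inv_mem (zpow_mem hP k))) fun B hB => ?_
        have hmem := mul_mem ha.1 (inv_mem (zpow_mem hP.1 k))
        rw [mem_unitGroup_iff]
        by_cases hBq : B.char = q
        · obtain ⟨γ, hγ⟩ := GalCommon.exists_smul_eq_of_liesOverPrime hq.1 hA
            (hBq ▸ B.liesOver_char)
          obtain rfl : γ • A' = B := Subtype.ext hγ
          rw [coe_smul_fin hmem (mem_fix_bot γ)]
          have h1 : A'.1.valuation (((a * (placeIdele ⊥ q hq.1.ne_zero A' ^ k)⁻¹).fin A' : Q̄ˣ) : Q̄)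
              = A'.1.valuation (1 : Q̄) := by
            show A'.1.valuation ((finHom A' (_ * _) : Q̄ˣ) : Q̄) = _
            rw [map_mul, map_inv, map_zpow, Units.val_mul, Units.val_inv_eq_inv_val,
              Units.val_zpow_eq_zpow_val, show ((finHom A' (placeIdele ⊥ q hq.1.ne_zero A')) : Q̄) = q
              from placeIdele_fin_self q hq.1.ne_zero A', map_mul, map_inv₀, map_zpow₀,
              show ((finHom A' a : Q̄ˣ) : Q̄) = a.fin A' from rfl, hk, map_one,
              mul_inv_cancel₀ (zpow_ne_zero _ (by simpa using hq.1.ne_zero))]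
          have h2 := (valuation_smul_eq_iff γ A').mpr h1
          rw [map_one, map_one] at h2
          exact h2
        · show B.1.valuation ((finHom B (_ * _) : Q̄ˣ) : Q̄) = 1
          rw [map_mul, map_inv, map_zpow, show finHom B (placeIdele ⊥ q hq.1.ne_zero A') = 1 from
            placeIdele_fin_of_not q hq.1.ne_zero fun ⟨γ, _, h⟩ => hBq (by
              rw [← h, Place.char_smul]; exact A'.char_eq hq.1 hA), one_zpow, inv_one, mul_one]
          refine mem_unitGroup_iff.mp (hS B fun hBS => ?_)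
          rw [Place.over_iff, Finset.mem_insert] at hBS
          exact hBS.elim hBq fun h => hB (B.over_iff.mpr h)
      have := mul_mem hb (zpow_mem (placeIdele_bot_mem hT hz hs hq.1 hq.2 A' hA') k)
      rwa [inv_mul_cancel_right] at this
    · refine ih a ha fun B hB => ?_
      by_cases hBS : B.Over (insert q S)
      · rw [Place.over_iff, Finset.mem_insert] at hBS
        have hBq : B.char = q := hBS.resolve_right fun h => hB (B.over_iff.mpr h)
        have hqT : q ∈ T := not_not.mp fun h => hq ⟨hBq ▸ B.prime_char, h⟩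
        rw [ha.2.1 B (B.over_iff.mpr (hBq ▸ hqT))]
        exact one_mem _
      · exact hS B hBS

end FLTAgent.Mod2.Select
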