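import Fermat.Agent.Mod2.Select.Coord
import Fermat.Agent.Mod2.Select.Places
import Fermat.Agent.TW.Idele.ClassField.Reciprocity

/-!
# The idele class character of a coordinate

For the cubic field `F` fixed by `H`, a homomorphism `c : H → 𝔽₂` unramified outside `T` gives a
character of the ideles of `F`: it kills principal ideles and units away from `T`, takes the value
`c(Frob)` at primes outside `T`, and kills ideles supported where `c` is locally trivial.

Main declarations: `IsSymbol`, `exists_symbol`.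
-/

set_option autoImplicit false
set_option synthInstance.maxHeartbeats 200000

noncomputable section

open scoped Pointwise

namespace FLTAgent.Mod2.Select

open TW

local notation "Q̄" => AlgebraicClosure ℚ

theorem fix_of_open (U : Subgroup Gal2) (hU : IsOpen (U : Set Gal2)) :
    (IntermediateField.fixedField U).fixingSubgroup = U := by
  have := GalCommon.isGalois_Qbar
  exact InfiniteGalois.fixingSubgroup_fixedField
    (⟨U, Subgroup.isClosed_of_isOpen U hU⟩ : ClosedSubgroup Gal2)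

theorem finite_of_open (U : Subgroup Gal2) (hU : IsOpen (U : Set Gal2)) :
    FiniteDimensional ℚ (IntermediateField.fixedField U) := by
  have := GalCommon.isGalois_Qbar
  refine (InfiniteGalois.isOpen_iff_finite _).mp ?_
  rw [fix_of_open U hU]
  exact hU

variable (D : Setup)

/-- The fields fixed by the stabiliser of `(1,0)` (cubic) and by the kernel of `ρ̄`. -/
def Fld : IntermediateField ℚ Q̄ := IntermediateField.fixedField (Hsub D)

/-- The field cut out by `ρ̄`. -/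
def SplitFld : IntermediateField ℚ Q̄ := IntermediateField.fixedField D.rho.ker

theorem isOpen_ker : IsOpen ((D.rho.ker : Subgroup Gal2) : Set Gal2) := by
  obtain ⟨L, hL, h⟩ := D.cont
  have := hL
  exact Subgroup.isOpen_mono (H₁ := L.fixingSubgroup)
    (fun σ hσ => MonoidHom.mem_ker.mpr (h σ ((IntermediateField.mem_fixingSubgroup_iff _ _).mp hσ)))
    L.fixingSubgroup_isOpen

theorem ker_le_Hsub : D.rho.ker ≤ Hsub D := fun _ h => mem_Hsub_of_rho_one D h

theorem isOpen_Hsub : IsOpen ((Hsub D : Subgroup Gal2) : Set Gal2) :=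
  Subgroup.isOpen_mono (ker_le_Hsub D) (isOpen_ker D)

theorem fix_Fld : (Fld D).fixingSubgroup = Hsub D := fix_of_open _ (isOpen_Hsub D)

theorem fix_SplitFld : (SplitFld D).fixingSubgroup = D.rho.ker := fix_of_open _ (isOpen_ker D)

instance finite_Fld : FiniteDimensional ℚ (Fld D) := finite_of_open _ (isOpen_Hsub D)

instance finite_SplitFld : FiniteDimensional ℚ (SplitFld D) := finite_of_open _ (isOpen_ker D)

theorem isGalois_SplitFld : IsGalois ℚ (SplitFld D) := by
  have := GalCommon.isGalois_Qbar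
  exact (InfiniteGalois.normal_iff_isGalois (SplitFld D)).mp
    (by rw [fix_SplitFld]; exact MonoidHom.normal_ker _)

theorem mem_Fld_of_fixed {x : Q̄} (h : ∀ σ ∈ Hsub D, σ x = x) : x ∈ Fld D :=
  fun σ => h σ.1 σ.2

theorem Fld_le : Fld D ≤ SplitFld D := fun _ hx σ => hx ⟨σ.1, ker_le_Hsub D σ.2⟩

theorem containsMu : ContainsMuP 2 (Fld D) := fun ζ hζ => by
  rcases sq_eq_one_iff.mp hζ with rfl | rfl
  · exact one_mem _
  · exact neg_mem (one_mem _)

/-- A set of primes containing the conductor. -/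
structure GoodSet (T : Finset ℕ) : Prop where
  prime : ∀ q ∈ T, q.Prime
  cond : ∀ q : ℕ, q.Prime → q ∣ 2 * D.m → q ∈ T

variable {D} {T : Finset ℕ}

theorem GoodSet.two_mem (hT : GoodSet D T) : 2 ∈ T := hT.cond 2 Nat.prime_two (dvd_mul_right _ _)

theorem inertia_rho (hT : GoodSet D T) {A : Place} (hA : ¬ A.Over T) {σ : Gal2}
    (hσ : σ ∈ A.1.inertiaSubgroupIn ℚ) : D.rho σ = 1 := by
  refine D.unram A.char A.prime_char (fun h => hA ?_) A.1 A.liesOver_char σ hσ
  exact (A.over_iff).mpr (hT.cond _ A.prime_char h)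

theorem ideleSetting (hT : GoodSet D T) : IdeleSetting T 2 (SplitFld D) where
  finite := inferInstance
  isGalois := isGalois_SplitFld D
  mem := hT.two_mem
  prime := hT.prime
  unramified A hA σ hσ := by
    rw [fix_SplitFld]
    exact MonoidHom.mem_ker.mpr (inertia_rho hT hA hσ)

/-- `±1` in `ℚ̄ˣ`. -/
def sgn (e : ZMod 2) : Q̄ˣ := if e = 0 then 1 else -1

theorem zmod_two : ∀ a b : ZMod 2,
    (a = 0 ∧ b = 0 ∧ a + b = 0) ∨ (a = 0 ∧ b ≠ 0 ∧ a + b ≠ 0) ∨
    (a ≠ 0 ∧ b = 0 ∧ a + b ≠ 0) ∨ (a ≠ 0 ∧ b ≠ 0 ∧ a + b = 0) := by decide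

theorem sgn_add (a b : ZMod 2) : sgn (a + b) = sgn a * sgn b := by
  unfold sgn
  rcases zmod_two a b with ⟨ha, hb, hab⟩ | ⟨ha, hb, hab⟩ | ⟨ha, hb, hab⟩ | ⟨ha, hb, hab⟩ <;>
    simp [ha, hb, hab]

@[simp] theorem sgn_zero : sgn 0 = 1 := if_pos rfl

theorem sgn_eq_one_iff (e : ZMod 2) : sgn e = 1 ↔ e = 0 := by
  refine ⟨fun h => ?_, fun h => by rw [h, sgn_zero]⟩
  by_contra he
  rw [sgn, if_neg he] at h
  have h' : (-1 : Q̄) = 1 := by simpa using congrArg Units.val h
  exact (by norm_num : (-1 : Q̄) ≠ 1) h'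

/-- A homomorphism `H → 𝔽₂` with open kernel, unramified outside `T`. -/
structure IsChar (D : Setup) (T : Finset ℕ) (c : Gal2 → ZMod 2) : Prop where
  mul : ∀ σ ∈ Hsub D, ∀ τ ∈ Hsub D, c (σ * τ) = c σ + c τ
  cont : ∃ L : IntermediateField ℚ Q̄, FiniteDimensional ℚ L ∧ IsGalois ℚ L ∧
    ∀ σ ∈ Hsub D, σ ∈ L.fixingSubgroup → c σ = 0
  unram : ∀ A : Place, ¬ A.Over T → ∀ σ ∈ A.1.inertiaSubgroupIn ℚ, c σ = 0

/-- The Kummer element of a character. -/
theorem IsChar.exists_kummer (hT : GoodSet D T) {c : Gal2 → ZMod 2} (hc : IsChar D T c) :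
    ∃ η : Q̄ˣ, (η : Q̄) ^ 2 ∈ Fld D ∧
      (∀ g ∈ Hsub D, g (η : Q̄) = if c g = 0 then (η : Q̄) else -(η : Q̄)) ∧
      ∀ A : Place, ¬ A.Over T → ∀ σ ∈ A.1.inertiaSubgroupIn ℚ, σ (η : Q̄) = η := by
  obtain ⟨L, hfin, hgal, hL⟩ := hc.cont
  obtain ⟨η, hη, h⟩ := exists_kummer_elem (Hsub D) c hc.mul L hL
  refine ⟨Units.mk0 η hη, mem_Fld_of_fixed D fun g hg => ?_, h, fun A hA σ hσ => ?_⟩
  · rw [Units.val_mk0, map_pow, h g hg]
    split_ifs <;> ring
  · show σ η = η
    rw [h σ (mem_Hsub_of_rho_one D (inertia_rho hT hA hσ)), if_pos (hc.unram A hA σ hσ)]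

/-- The properties of the character attached to `c`. -/
structure IsSymbol (D : Setup) (T : Finset ℕ) (c : Gal2 → ZMod 2)
    (lam : ideles (Fld D) →* Q̄ˣ) : Prop where
  sq : ∀ φ, lam φ ^ 2 = 1
  ker : ∀ φ : ideles (Fld D), φ.1 ∈ classKer T (Fld D) → lam φ = 1
  split : ∀ φ : ideles (Fld D), φ.1.inf = 1 →
    (∀ A : Place, φ.1.fin A ≠ 1 → ∀ σ ∈ Hsub D, σ • A = A → c σ = 0) → lam φ = 1
  frob : ∀ (q : ℕ) (hq : q.Prime) (A : Place), q ∉ T → A.1.LiesOverPrime q →
    ∀ σ : Gal2, A.1.IsFrobeniusAt σ q → ∀ f : ℕ, 0 < f → σ ^ f ∈ Hsub D →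
      (∀ g : ℕ, 0 < g → g < f → σ ^ g ∉ Hsub D) →
      ∀ h : placeIdele (Fld D) q hq.ne_zero A ∈ ideles (Fld D),
        lam ⟨_, h⟩ = sgn (c (σ ^ f))

/-- A character of the coordinate has an idele class symbol. -/
theorem exists_symbol (hT : GoodSet D T) {c : Gal2 → ZMod 2} (hc : IsChar D T c) :
    ∃ lam, IsSymbol D T c lam := by
  obtain ⟨η, hη2, hη, hηunr⟩ := hc.exists_kummer hT
  obtain ⟨lam, hsq, hker, hnorm, hfrob⟩ :=
    TW.exists_reciprocity (ideleSetting hT) (Fld_le D) (containsMu D) hη2 hηunr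
  refine ⟨lam, hsq, hker, fun φ hinf hsupp => hnorm φ ?_, ?_⟩
  · have := finite_kummerField (F := Fld D) (η : Q̄)
    refine mem_normSubgroup_of_split (le_kummerField _) φ.2 (fun A hA σ hσ hσA => ?_)
      (fun ι hι => absurd (congrFun hinf ι) hι)
    rw [fix_Fld] at hσ
    rw [mem_fix_kummerField, fix_Fld]
    exact ⟨hσ, by rw [hη σ hσ, if_pos (hsupp A hA σ hσ hσA)]⟩
  · intro q hq A hqT hA σ hσ f hf hmem hmin h
    have h1 := hfrob q hq A hqT hA σ hσ f hf (by rwa [fix_Fld]) (by rwa [fix_Fld]) h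
    rw [hη _ hmem] at h1
    refine Units.ext ?_
    rw [h1, sgn]
    split_ifs with h0
    · rw [Units.val_one, div_self η.ne_zero]
    · rw [Units.val_neg, Units.val_one, neg_div, div_self η.ne_zero]

end FLTAgent.Mod2.Select
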